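import Mathlib
import Fermat.Prelude.Def_ModularCurve_PeriodHomPair
import Fermat.Prelude.Def_ModularCurve_GenusNumerics

/-!
# S21 (Eichler–Shimura period map): assembly from the parts

`Fermat.Agent.S21.result_of_parts` derives the frozen statement from five interface hypotheses
(parts A, C, D, E1 of the plan in `NOTES/plan/S21.md`, and the dimension formula S20).
Part B (linearity of the period map) is proved here from part A.
-/

set_option autoImplicit false

open ModularCurve ModularCurve.Period UpperHalfPlane CongruenceSubgroup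
open scoped MatrixGroups

namespace Fermat.Agent.S21

/-- Two primitives on the upper half-plane of the same function differ by a constant. -/
theorem primitive_sub_const {F G : ℍ → ℂ} {f : ℍ → ℂ}
    (hF : ∀ τ : ℍ, HasDerivAt (F ∘ ofComplex) (f τ) ↑τ)
    (hG : ∀ τ : ℍ, HasDerivAt (G ∘ ofComplex) (f τ) ↑τ) :
    ∃ c : ℂ, ∀ τ : ℍ, F τ - G τ = c := by
  have hopen : IsOpen {z : ℂ | 0 < z.im} := isOpen_lt continuous_const Complex.continuous_im
  have hconv : Convex ℝ {z : ℂ | 0 < z.im} := by
    simpa using (convex_halfSpace_im_gt 0)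
  have hd : ∀ z ∈ {z : ℂ | 0 < z.im},
      HasDerivAt (fun w => (F ∘ ofComplex) w - (G ∘ ofComplex) w) 0 z := by
    intro z hz
    have h1 := hF ⟨z, hz⟩
    have h2 := hG ⟨z, hz⟩
    have h3 := h1.sub h2
    rw [sub_self] at h3
    exact h3
  have hdiff : DifferentiableOn ℂ (fun w => (F ∘ ofComplex) w - (G ∘ ofComplex) w)
      {z : ℂ | 0 < z.im} := fun z hz => (hd z hz).differentiableAt.differentiableWithinAt
  have hderiv : ∀ z ∈ {z : ℂ | 0 < z.im},
      fderivWithin ℂ (fun w => (F ∘ ofComplex) w - (G ∘ ofComplex) w) {z : ℂ | 0 < z.im} z = 0 := by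
    intro z hz
    rw [fderivWithin_eq_fderiv (hopen.uniqueDiffWithinAt hz) (hd z hz).differentiableAt]
    have := (hd z hz).hasFDerivAt.fderiv
    rw [this]
    ext
    simp
  refine ⟨F UpperHalfPlane.I - G UpperHalfPlane.I, fun τ => ?_⟩
  have := hconv.is_const_of_fderivWithin_eq_zero (𝕜 := ℂ) hdiff hderiv τ.2 UpperHalfPlane.I.2
  simpa only [Function.comp_apply, ofComplex_apply] using this

end Fermat.Agent.S21

namespace Fermat.Agent.S21

variable {N : ℕ}

/-- The period map evaluated through *any* equivariant primitive. -/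
theorem periodMap_apply_of_hasEquivariantPrimitive {f : CuspForm (Gamma0 N) 2} {F : ℍ → ℂ}
    (hF : HasEquivariantPrimitive N f F) (γ : Gamma0 N) (z : ℍ) :
    periodMap N f (Additive.ofMul γ) = F ((γ : SL(2, ℤ)) • z) - F z := by
  obtain ⟨F₀, h₀, hP⟩ := periodMap_def N f hF
  obtain ⟨c, hc⟩ := primitive_sub_const (f := f) h₀.1 hF.1
  rw [hP, IsEquivariantPrimitive.periodHom_apply, ← h₀.2.2.1.sub_eq_period γ z]
  have h1 := hc ((γ : SL(2, ℤ)) • z)
  have h2 := hc z
  linear_combination h1 - h2

theorem hasEquivariantPrimitive_add {f g : CuspForm (Gamma0 N) 2} {F G : ℍ → ℂ}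
    (hF : HasEquivariantPrimitive N f F) (hG : HasEquivariantPrimitive N g G) :
    HasEquivariantPrimitive N (f + g) (fun z => F z + G z) := by
  refine ⟨fun τ => ?_, ?_, fun γ => ?_, fun δ => ?_⟩
  · have := (hF.1 τ).add (hG.1 τ)
    exact this
  · simpa using hF.2.1.add hG.2.1
  · obtain ⟨c, hc⟩ := hF.2.2.1 γ
    obtain ⟨d, hd⟩ := hG.2.2.1 γ
    refine ⟨c + d, fun z => ?_⟩
    have h1 := hc z
    have h2 := hd z
    linear_combination h1 + h2
  · obtain ⟨L, hL⟩ := hF.2.2.2 δ
    obtain ⟨M, hM⟩ := hG.2.2.2 δ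
    exact ⟨L + M, hL.add hM⟩

theorem hasEquivariantPrimitive_smul {f : CuspForm (Gamma0 N) 2} {F : ℍ → ℂ}
    (hF : HasEquivariantPrimitive N f F) (a : ℂ) :
    HasEquivariantPrimitive N (a • f) (fun z => a * F z) := by
  refine ⟨fun τ => ?_, ?_, fun γ => ?_, fun δ => ?_⟩
  · have := (hF.1 τ).const_mul a
    exact this
  · simpa using hF.2.1.const_mul a
  · obtain ⟨c, hc⟩ := hF.2.2.1 γ
    refine ⟨a * c, fun z => ?_⟩
    have h1 := hc z
    linear_combination a * h1
  · obtain ⟨L, hL⟩ := hF.2.2.2 δ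
    exact ⟨a * L, hL.const_mul a⟩

/-- Part B: the period map is linear as soon as every cusp form has an equivariant primitive. -/
theorem existsPeriodMapLinear_of_partA
    (hA : ∀ f : CuspForm (Gamma0 N) 2, ∃ F : ℍ → ℂ, HasEquivariantPrimitive N f F) :
    ExistsPeriodMapLinear N := by
  refine ⟨{ toFun := periodMap N, map_add' := fun f g => ?_, map_smul' := fun a f => ?_ },
    fun f => rfl⟩
  · obtain ⟨F, hF⟩ := hA f
    obtain ⟨G, hG⟩ := hA g
    refine AddMonoidHom.ext fun γ => ?_
    have h1 := periodMap_apply_of_hasEquivariantPrimitive (hasEquivariantPrimitive_add hF hG)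
      (Additive.toMul γ) UpperHalfPlane.I
    have h2 := periodMap_apply_of_hasEquivariantPrimitive hF (Additive.toMul γ) UpperHalfPlane.I
    have h3 := periodMap_apply_of_hasEquivariantPrimitive hG (Additive.toMul γ) UpperHalfPlane.I
    simp only [ofMul_toMul] at h1 h2 h3
    rw [AddMonoidHom.add_apply, h1, h2, h3]
    ring
  · obtain ⟨F, hF⟩ := hA f
    refine AddMonoidHom.ext fun γ => ?_
    have h1 := periodMap_apply_of_hasEquivariantPrimitive (hasEquivariantPrimitive_smul hF a)
      (Additive.toMul γ) UpperHalfPlane.I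
    have h2 := periodMap_apply_of_hasEquivariantPrimitive hF (Additive.toMul γ) UpperHalfPlane.I
    simp only [ofMul_toMul] at h1 h2
    rw [RingHom.id_apply, AddMonoidHom.smul_apply, h1, h2, smul_eq_mul]
    ring

/-- Assembly of the Eichler–Shimura statement from the parts. -/
theorem result_of_parts
    (hA : ∀ f : CuspForm (Gamma0 N) 2, ∃ F : ℍ → ℂ, HasEquivariantPrimitive N f F)
    (hC : ∀ f : CuspForm (Gamma0 N) 2, periodMap N f ∈ parabolicHoms ℂ (Gamma0 N) ℂ)
    (hD : ∀ a b : CuspForm (Gamma0 N) 2,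
      periodMap N a + charInvolution N ℂ ℂ (periodMap N b) = 0 → a = 0 ∧ b = 0)
    (hE : Module.Finite ℂ (parabolicHoms ℂ (Gamma0 N) ℂ) ∧
      (Module.finrank ℂ (parabolicHoms ℂ (Gamma0 N) ℂ) : ℚ) ≤ 2 * genusFormula N)
    (hS20 : (Module.finrank ℂ (CuspForm (Gamma0 N) 2) : ℚ) = genusFormula N) :
    Function.Injective (ModularCurve.periodHomPair N)
      ∧ LinearMap.range (ModularCurve.periodHomPair N)
          = ModularCurve.Period.parabolicHoms ℂ (CongruenceSubgroup.Gamma0 N) ℂ := by
  obtain ⟨pml, hpml, hdef⟩ := periodHomPair_def N (existsPeriodMapLinear_of_partA hA)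
  have hform : ∀ f g : CuspForm (Gamma0 N) 2, periodHomPair N (f, g)
      = periodMap N (f + g) + charInvolution N ℂ ℂ (periodMap N (f - g)) := by
    intro f g
    rw [hdef, ← hpml, ← hpml]
    simp only [LinearMap.coprod_apply, LinearMap.comp_apply, LinearMap.add_apply,
      LinearMap.sub_apply, LinearMap.id_apply, map_add, map_sub]
    abel
  have hinj : Function.Injective (periodHomPair N) := by
    rw [injective_iff_map_eq_zero]
    rintro ⟨f, g⟩ h
    rw [hform] at h
    obtain ⟨h1, h2⟩ := hD _ _ h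
    have hf : f = 0 := by
      have : (2 : ℂ) • f = 0 := by
        rw [two_smul]
        calc f + f = (f + g) + (f - g) := by abel
          _ = 0 := by rw [h1, h2, add_zero]
      exact (smul_eq_zero.mp this).resolve_left two_ne_zero
    have hg : g = 0 := by
      rw [hf, zero_add] at h1
      exact h1
    rw [hf, hg]
    rfl
  refine ⟨hinj, ?_⟩
  have hle : LinearMap.range (periodHomPair N) ≤ parabolicHoms ℂ (Gamma0 N) ℂ := by
    rintro _ ⟨⟨f, g⟩, rfl⟩
    rw [hform]
    exact Submodule.add_mem _ (hC _) (charInvolution_mem_parabolicHoms N ℂ ℂ (hC _))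
  haveI := hE.1
  -- the domain is finite-dimensional since it embeds into `parabolicHoms`
  let ι : (CuspForm (Gamma0 N) 2 × CuspForm (Gamma0 N) 2) →ₗ[ℂ] parabolicHoms ℂ (Gamma0 N) ℂ :=
    (periodHomPair N).codRestrict _ (fun x => hle ⟨x, rfl⟩)
  have hιinj : Function.Injective ι := fun x y hxy => hinj (congrArg Subtype.val hxy)
  haveI : Module.Finite ℂ (CuspForm (Gamma0 N) 2 × CuspForm (Gamma0 N) 2) :=
    Module.Finite.of_injective ι hιinj
  haveI : Module.Finite ℂ (CuspForm (Gamma0 N) 2) :=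
    Module.Finite.of_injective (LinearMap.inl ℂ _ (CuspForm (Gamma0 N) 2)) LinearMap.inl_injective
  have hdim : Module.finrank ℂ (parabolicHoms ℂ (Gamma0 N) ℂ)
      ≤ Module.finrank ℂ (LinearMap.range (periodHomPair N)) := by
    rw [LinearMap.finrank_range_of_inj hinj, Module.finrank_prod]
    have h1 := hE.2
    rw [← hS20] at h1
    have : (Module.finrank ℂ (parabolicHoms ℂ (Gamma0 N) ℂ) : ℚ)
        ≤ ((Module.finrank ℂ (CuspForm (Gamma0 N) 2) + Module.finrank ℂ (CuspForm (Gamma0 N) 2) : ℕ) : ℚ) := by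
      push_cast
      linarith
    exact_mod_cast this
  exact Submodule.eq_of_le_of_finrank_le hle hdim

end Fermat.Agent.S21
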