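import Mathlib
import Fermat.Prelude.Def_ModularCurve_PeriodHomPair
import Fermat.Prelude.Thm_Subgroup_IsArithmetic_exists_nat_mem_strictPeriods_conj
import Fermat.Agent.S21.Assembly

/-!
# S21, part A: every weight-2 cusp form on `Γ₀(N)` has an equivariant primitive
-/

set_option autoImplicit false

open ModularCurve ModularCurve.Period UpperHalfPlane CongruenceSubgroup Filter Topology Function
open scoped MatrixGroups ModularForm Real Manifold Pointwise

namespace Fermat.Agent.S21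

/-- Derivative of the `q`-parameter. -/
theorem hasDerivAt_qParam (h : ℝ) (z : ℂ) :
    HasDerivAt (Periodic.qParam h) (2 * π * Complex.I / h * Periodic.qParam h z) z := by
  unfold Periodic.qParam
  have h1 : HasDerivAt (fun z : ℂ => 2 * π * Complex.I * z / h) (2 * π * Complex.I / h) z := by
    have := ((hasDerivAt_id z).const_mul (2 * π * Complex.I)).div_const (h : ℂ)
    simpa using this
  have h2 := h1.cexp
  rw [mul_comm (Complex.exp _)] at h2
  exact h2

/-- A holomorphic `h`-periodic function on `ℍ` vanishing at `i∞` has a primitive that tends to `0`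
at `i∞`. -/
theorem exists_primitive_of_periodic {g : ℍ → ℂ} {h : ℝ} (hh : 0 < h)
    (hper : Function.Periodic (g ∘ ofComplex) h) (hhol : MDiff g) (hzero : IsZeroAtImInfty g) :
    ∃ G : ℍ → ℂ, (∀ τ : ℍ, HasDerivAt (G ∘ ofComplex) (g τ) ↑τ) ∧ Tendsto G atImInfty (𝓝 0) := by
  set c := cuspFunction h g with hcdef
  have hbdd : IsBoundedAtImInfty g := hzero.isBoundedAtImInfty
  have hc : DifferentiableOn ℂ c (Metric.ball 0 1) :=
    differentiableOn_cuspFunction_ball hh hper hhol hbdd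
  have hc0 : c 0 = 0 := by
    rw [hcdef, cuspFunction_apply_zero hh (analyticAt_cuspFunction_zero hh hper hhol hbdd) hper]
    exact hzero.valueAtInfty_eq_zero
  have hd : DifferentiableOn ℂ (dslope c 0) (Metric.ball 0 1) :=
    (Complex.differentiableOn_dslope (Metric.ball_mem_nhds 0 one_pos)).mpr hc
  obtain ⟨Φ, hΦ0, hΦ⟩ := hd.isExactOn_ball.with_val_at 0 0
  refine ⟨fun τ => (h / (2 * π * Complex.I)) * Φ (Periodic.qParam h τ), fun τ => ?_, ?_⟩
  · have hq : Periodic.qParam h τ ∈ Metric.ball (0 : ℂ) 1 := by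
      simpa using Periodic.norm_qParam_lt_one hh τ.im_pos
    have h1 := (hΦ _ hq).comp (τ : ℂ) (hasDerivAt_qParam h τ)
    have h2 := h1.const_mul ((h : ℂ) / (2 * π * Complex.I))
    have hval : ((h : ℂ) / (2 * π * Complex.I)) * (dslope c 0 (Periodic.qParam h τ)
        * (2 * π * Complex.I / h * Periodic.qParam h τ)) = g τ := by
      have h3 := sub_smul_dslope c 0 (Periodic.qParam h τ)
      rw [sub_zero, hc0, sub_zero, smul_eq_mul] at h3
      have hcq : c (Periodic.qParam h τ) = g τ := eq_cuspFunction τ hh.ne' hper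
      rw [← hcq, ← h3]
      have hh' : (h : ℂ) ≠ 0 := by exact_mod_cast hh.ne'
      have hpi : (π : ℂ) ≠ 0 := by exact_mod_cast Real.pi_ne_zero
      field_simp
    rw [hval] at h2
    refine h2.congr_of_eventuallyEq ?_
    filter_upwards [isOpen_upperHalfPlaneSet.mem_nhds τ.im_pos] with z hz
    simp [Function.comp, ofComplex_apply_of_im_pos hz]
  · have hcont : ContinuousAt Φ 0 := (hΦ 0 (Metric.mem_ball_self one_pos)).continuousAt
    have h1 := hcont.tendsto.comp (qParam_tendsto_atImInfty hh)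
    rw [hΦ0] at h1
    simpa using h1.const_mul ((h : ℂ) / (2 * π * Complex.I))

theorem det_coe_GL (δ : SL(2, ℤ)) : ((δ : GL (Fin 2) ℝ)).val.det = 1 := by
  have := (Matrix.SpecialLinearGroup.map (Int.castRingHom ℝ) δ).det_coe
  simpa using this

/-- Chain rule: if `F` is a primitive of `f` on `ℍ`, then `F ∘ δ` is a primitive of `f ∣[2] δ`. -/
theorem hasDerivAt_comp_smul {F : ℍ → ℂ} {f : ℍ → ℂ}
    (hF : ∀ τ : ℍ, HasDerivAt (F ∘ ofComplex) (f τ) ↑τ) (δ : SL(2, ℤ)) (τ : ℍ) :
    HasDerivAt ((fun w : ℍ => F (δ • w)) ∘ ofComplex) ((f ∣[(2 : ℤ)] δ) τ) ↑τ := by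
  have hdet : (0 : ℝ) < ((δ : GL (Fin 2) ℝ)).val.det := by rw [det_coe_GL]; exact one_pos
  have h1 := (hasStrictDerivAt_smul hdet τ).hasDerivAt
  have h2 : HasDerivAt (F ∘ ofComplex) (f (δ • τ))
      (↑((δ : GL (Fin 2) ℝ) • ofComplex (τ : ℂ))) := by
    rw [ofComplex_apply]
    exact hF (δ • τ)
  have h3 := h2.comp (τ : ℂ) h1
  have hval : f (δ • τ) * (((δ : GL (Fin 2) ℝ)).val.det / denom (δ : GL (Fin 2) ℝ) τ ^ 2)
      = (f ∣[(2 : ℤ)] δ) τ := by
    rw [ModularForm.SL_slash_apply, det_coe_GL]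
    simp [zpow_neg, div_eq_mul_inv]
  rw [hval] at h3
  refine h3.congr_of_eventuallyEq ?_
  filter_upwards with z
  simp [Function.comp]

/-- **Part A**: every weight-2 cusp form on `Γ₀(N)` has an equivariant primitive. -/
theorem partA (N : ℕ) [NeZero N] (f : CuspForm (Gamma0 N) 2) :
    ∃ F : ℍ → ℂ, HasEquivariantPrimitive N f F := by
  obtain ⟨M, hM, hper⟩ := Subgroup.IsArithmetic.exists_nat_mem_strictPeriods_conj
    (Subgroup.map (Matrix.SpecialLinearGroup.mapGL ℝ) (Gamma0 N))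
  have key : ∀ δ : SL(2, ℤ), ∃ G : ℍ → ℂ,
      (∀ τ : ℍ, HasDerivAt (G ∘ ofComplex) ((⇑f ∣[(2 : ℤ)] δ) τ) ↑τ)
        ∧ Tendsto G atImInfty (𝓝 0) := by
    intro δ
    refine exists_primitive_of_periodic (h := M) (by exact_mod_cast hM) ?_ ?_ ?_
    · have hmem : (M : ℝ) ∈ (ConjAct.toConjAct ((δ : GL (Fin 2) ℝ))⁻¹ •
          (Subgroup.map (Matrix.SpecialLinearGroup.mapGL ℝ) (Gamma0 N))).strictPeriods := by
        have h0 := hper δ⁻¹
        rw [map_inv] at h0
        exact h0
      have := SlashInvariantFormClass.periodic_comp_ofComplex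
        (CuspForm.translate f (δ : GL (Fin 2) ℝ)) hmem
      exact this
    · exact (CuspFormClass.holo f).slash 2 (δ : GL (Fin 2) ℝ)
    · exact CuspFormClass.zero_at_infty_slash f δ
  obtain ⟨F, hF1, hF2⟩ := key 1
  have hF1' : ∀ τ : ℍ, HasDerivAt (F ∘ ofComplex) (f τ) ↑τ := by
    intro τ
    have := hF1 τ
    rwa [SlashAction.slash_one] at this
  refine ⟨F, hF1', hF2, ?_, ?_⟩
  · intro γ
    have h1 : ∀ τ : ℍ,
        HasDerivAt ((fun w : ℍ => F ((γ : SL(2, ℤ)) • w)) ∘ ofComplex) (f τ) ↑τ := by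
      intro τ
      have h := hasDerivAt_comp_smul hF1' (γ : SL(2, ℤ)) τ
      have hinv : (⇑f ∣[(2 : ℤ)] (γ : SL(2, ℤ))) = ⇑f := by
        rw [ModularForm.SL_slash]
        exact SlashInvariantForm.slash_action_eqn f _ (Subgroup.mem_map_of_mem _ γ.2)
      rwa [hinv] at h
    obtain ⟨c, hc⟩ := primitive_sub_const h1 hF1'
    exact ⟨c, hc⟩
  · intro δ
    obtain ⟨G, hG1, hG2⟩ := key δ
    obtain ⟨c, hc⟩ := primitive_sub_const (hasDerivAt_comp_smul hF1' δ) hG1
    refine ⟨c, ?_⟩
    have hfun : (fun w : ℍ => F (δ • w)) = fun w => G w + c := by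
      funext w
      have := hc w
      linear_combination this
    rw [hfun]
    simpa using hG2.add_const c

end Fermat.Agent.S21
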