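import Mathlib

/-!
# S21, part D-core: a holomorphic function on the upper half plane whose modulus is
`Γ₀(N)`-invariant, which is `N`-periodic after every `δ ∈ SL(2, ℤ)` and has a limit at
every cusp, is constant (maximum modulus principle on the compactified modular curve).
-/

set_option autoImplicit false

open UpperHalfPlane CongruenceSubgroup Filter Topology Function
open scoped MatrixGroups Manifold

namespace Fermat.Agent.S21

theorem partD_core (N : ℕ) [NeZero N] (E : ℍ → ℂ)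
    (hE : ∀ τ : ℍ, DifferentiableAt ℂ (E ∘ ofComplex) (τ : ℂ))
    (hinv : ∀ γ ∈ Gamma0 N, ∀ z : ℍ, ‖E (γ • z)‖ = ‖E z‖)
    (hper : ∀ (δ : SL(2, ℤ)) (w : ℍ), E (δ • (ModularGroup.T ^ N • w)) = E (δ • w))
    (hlim : ∀ δ : SL(2, ℤ), ∃ L : ℂ, Tendsto (fun w : ℍ => E (δ • w)) atImInfty (𝓝 L)) :
    ∃ c : ℂ, ∀ z : ℍ, E z = c := by
  classical
  have hN : (0 : ℝ) < (N : ℝ) := by exact_mod_cast Nat.pos_of_ne_zero (NeZero.ne N)
  -- the translates, as functions on `ℂ`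
  let f : SL(2, ℤ) → ℂ → ℂ := fun δ => (fun w : ℍ => E (δ • w)) ∘ ofComplex
  have hf_apply : ∀ δ (w : ℍ), f δ (w : ℂ) = E (δ • w) := fun δ w => by
    simp only [f, comp_apply, ofComplex_apply]
  -- (1) periodicity
  have hfper : ∀ δ, Periodic (f δ) ((N : ℝ) : ℂ) := by
    intro δ z
    by_cases hz : 0 < z.im
    · have hz' : 0 < (z + ((N : ℝ) : ℂ)).im := by simpa using hz
      have h1 : (⟨z + ((N : ℝ) : ℂ), hz'⟩ : ℍ) = ModularGroup.T ^ N • (⟨z, hz⟩ : ℍ) := by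
        apply UpperHalfPlane.ext
        have := ModularGroup.coe_T_zpow_smul_eq (z := (⟨z, hz⟩ : ℍ)) (n := (N : ℤ))
        rw [zpow_natCast] at this
        rw [this]
        simp
      have h2 := hf_apply δ ⟨z + ((N : ℝ) : ℂ), hz'⟩
      have h3 := hf_apply δ ⟨z, hz⟩
      simp only at h2 h3
      rw [h2, h3, h1]
      exact hper δ _
    · have hz0 : z.im ≤ 0 := not_lt.mp hz
      have hz' : (z + ((N : ℝ) : ℂ)).im ≤ 0 := by simpa using hz0
      simp only [f, comp_apply]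
      rw [ofComplex_apply_eq_of_im_nonpos hz' hz0]
  -- (2) differentiability on the upper half plane
  have hfdiff : ∀ δ (z : ℂ), 0 < z.im → DifferentiableAt ℂ (f δ) z := by
    intro δ z hz
    have hEm : ∀ τ : ℍ, MDifferentiableAt 𝓘(ℂ) 𝓘(ℂ) E τ := fun τ =>
      mdifferentiableAt_iff.mpr (hE τ)
    have hg : 0 < ((δ : GL (Fin 2) ℝ)).det.val := by simp
    have h1 : MDifferentiableAt 𝓘(ℂ) 𝓘(ℂ) (fun w : ℍ => E (δ • w)) ⟨z, hz⟩ :=
      (hEm (δ • ⟨z, hz⟩)).comp (⟨z, hz⟩ : ℍ) (mdifferentiable_smul hg ⟨z, hz⟩)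
    exact mdifferentiableAt_iff.mp h1
  -- (3) boundedness at `i∞`
  have hfbdd : ∀ δ, BoundedAtFilter (comap Complex.im atTop) (f δ) := by
    intro δ
    obtain ⟨L, hL⟩ := hlim δ
    have h1 : Tendsto (f δ) (comap Complex.im atTop) (𝓝 L) := hL.comp tendsto_comap_im_ofComplex
    exact h1.isBigO_one ℝ
  have hfhol : ∀ δ, ∀ᶠ z in comap Complex.im atTop, DifferentiableAt ℂ (f δ) z := by
    intro δ
    have h1 : ∀ᶠ z in comap Complex.im atTop, 0 < z.im :=
      (tendsto_comap (f := Complex.im) (x := atTop)).eventually (eventually_gt_atTop 0)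
    exact h1.mono fun z hz => hfdiff δ z hz
  -- cusp functions
  let c : SL(2, ℤ) → ℂ → ℂ := fun δ => Periodic.cuspFunction (N : ℝ) (f δ)
  have hc_eq : ∀ δ (w : ℍ), c δ (Periodic.qParam (N : ℝ) (w : ℂ)) = E (δ • w) := by
    intro δ w
    rw [← hf_apply δ w]
    exact Periodic.eq_cuspFunction hN.ne' (hfper δ) (w : ℂ)
  have hc_diffAt : ∀ δ, ∀ q ∈ Metric.ball (0 : ℂ) 1, DifferentiableAt ℂ (c δ) q := by
    intro δ q hq
    rcases eq_or_ne q 0 with rfl | hq0
    · exact Periodic.differentiableAt_cuspFunction_zero hN (hfper δ) (hfhol δ) (hfbdd δ)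
    · have him := Periodic.im_invQParam_pos_of_norm_lt_one hN (mem_ball_zero_iff.mp hq) hq0
      have := Periodic.differentiableAt_cuspFunction hN.ne' (hfper δ) (hfdiff δ _ him)
      rwa [Periodic.qParam_right_inv hN.ne' hq0] at this
  have hc_diff : ∀ δ, DifferentiableOn ℂ (c δ) (Metric.ball 0 1) := fun δ q hq =>
    (hc_diffAt δ q hq).differentiableWithinAt
  -- the radius
  set r : ℝ := Real.exp (-Real.pi / N) with hr
  have hr0 : 0 ≤ r := (Real.exp_pos _).le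
  have hr1 : r < 1 := by
    rw [hr, Real.exp_lt_one_iff]
    exact div_neg_of_neg_of_pos (neg_lt_zero.mpr Real.pi_pos) hN
  have hqr : ∀ w : ℍ, 1 / 2 ≤ w.im → Periodic.qParam (N : ℝ) (w : ℂ) ∈ Metric.closedBall (0 : ℂ) r := by
    intro w hw
    rw [mem_closedBall_zero_iff, Periodic.norm_qParam, hr, Real.exp_le_exp]
    rw [div_le_div_iff_of_pos_right hN]
    have : (w : ℂ).im = w.im := rfl
    rw [this]
    nlinarith [Real.pi_pos]
  -- coset representatives and maximisers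
  have hmax : ∀ δ : SL(2, ℤ), ∃ x ∈ Metric.closedBall (0 : ℂ) r,
      IsMaxOn (fun q => ‖c δ q‖) (Metric.closedBall (0 : ℂ) r) x := by
    intro δ
    exact (isCompact_closedBall (0 : ℂ) r).exists_isMaxOn (Metric.nonempty_closedBall.mpr hr0)
      ((hc_diff δ).continuousOn.mono (Metric.closedBall_subset_ball hr1)).norm
  choose x hx_mem hx_max using hmax
  let rep : (SL(2, ℤ) ⧸ Gamma0 N) → SL(2, ℤ) := fun q => (Quotient.out q)⁻¹
  obtain ⟨q₀, hq₀⟩ := Finite.exists_max (fun q : SL(2, ℤ) ⧸ Gamma0 N => ‖c (rep q) (x (rep q))‖)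
  set δ₀ := rep q₀ with hδ₀
  set B := ‖c δ₀ (x δ₀)‖ with hB
  -- the global bound
  have hbound : ∀ τ : ℍ, ‖E τ‖ ≤ B := by
    intro τ
    obtain ⟨γ₀, hγ₀⟩ := ModularGroup.exists_one_half_le_im_smul τ
    obtain ⟨h, hh⟩ := QuotientGroup.mk_out_eq_mul (Gamma0 N) γ₀
    set q : SL(2, ℤ) ⧸ Gamma0 N := QuotientGroup.mk γ₀ with hq
    have h1 : τ = (h : SL(2, ℤ)) • (rep q • (γ₀ • τ)) := by
      have : (h : SL(2, ℤ)) * rep q * γ₀ = 1 := by
        simp only [rep]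
        rw [hh]
        group
      rw [← mul_smul, ← mul_smul, this, one_smul]
    calc ‖E τ‖ = ‖E ((h : SL(2, ℤ)) • (rep q • (γ₀ • τ)))‖ := by rw [← h1]
      _ = ‖E (rep q • (γ₀ • τ))‖ := hinv _ h.2 _
      _ = ‖c (rep q) (Periodic.qParam (N : ℝ) ((γ₀ • τ : ℍ) : ℂ))‖ := by rw [hc_eq]
      _ ≤ ‖c (rep q) (x (rep q))‖ := hx_max (rep q) (hqr _ hγ₀)
      _ ≤ B := hq₀ q
  -- bound for the cusp function of `δ₀` on the whole unit disc
  have hcB : ∀ z ∈ Metric.ball (0 : ℂ) 1, ‖c δ₀ z‖ ≤ B := by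
    have hne : ∀ z ∈ Metric.ball (0 : ℂ) 1, z ≠ 0 → ‖c δ₀ z‖ ≤ B := by
      intro z hz hz0
      have him := Periodic.im_invQParam_pos_of_norm_lt_one hN (mem_ball_zero_iff.mp hz) hz0
      have h1 := hc_eq δ₀ ⟨_, him⟩
      simp only at h1
      rw [Periodic.qParam_right_inv hN.ne' hz0] at h1
      rw [h1]
      exact hbound _
    intro z hz
    rcases eq_or_ne z 0 with rfl | hz0
    · have hcont : ContinuousAt (c δ₀) 0 := (hc_diffAt δ₀ 0 hz).continuousAt
      have ht : Tendsto (fun q => ‖c δ₀ q‖) (𝓝[≠] (0 : ℂ)) (𝓝 ‖c δ₀ 0‖) :=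
        (hcont.norm.tendsto).mono_left nhdsWithin_le_nhds
      refine le_of_tendsto ht ?_
      have hball : Metric.ball (0 : ℂ) 1 ∈ 𝓝 (0 : ℂ) := Metric.ball_mem_nhds 0 one_pos
      filter_upwards [nhdsWithin_le_nhds hball, self_mem_nhdsWithin] with q hq hq0
      exact hne q hq hq0
    · exact hne z hz hz0
  -- maximum modulus principle
  have hconst : Set.EqOn (c δ₀) (Function.const ℂ (c δ₀ 0)) (Metric.ball 0 1) := by
    refine Complex.eq_const_of_exists_le (hc_diff δ₀) hr0 hr1 fun z hz => ?_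
    exact ⟨x δ₀, hx_mem δ₀, hcB z hz⟩
  refine ⟨c δ₀ 0, fun z => ?_⟩
  have h1 := hc_eq δ₀ (δ₀⁻¹ • z)
  rw [smul_inv_smul] at h1
  rw [← h1]
  refine hconst ?_
  rw [mem_ball_zero_iff]
  exact Periodic.norm_qParam_lt_one hN (δ₀⁻¹ • z).im_pos

end Fermat.Agent.S21
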