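import Mathlib
import Fermat.Prelude.Def_ModularCurve_PeriodHomPair

/-!
# S21, part C: the period of a parabolic element vanishes

If `γ ∈ Γ₀(N)` has `trace² = 4`, then `γ` is, up to sign, conjugate in `SL(2, ℤ)` to a power of
`T`, and the limits of the equivariant primitive at the cusps force `F (γ • z) = F z`.
-/

set_option autoImplicit false

open ModularCurve ModularCurve.Period UpperHalfPlane CongruenceSubgroup Filter Topology
open scoped MatrixGroups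

namespace Fermat.Agent.S21

namespace H86

theorem conj_lower_left (γ δ : SL(2, ℤ)) :
    ((δ⁻¹ * γ * δ : SL(2, ℤ)) : Matrix (Fin 2) (Fin 2) ℤ) 1 0 =
      γ 1 0 * (δ 0 0) ^ 2 + (γ 1 1 - γ 0 0) * (δ 0 0) * (δ 1 0) - γ 0 1 * (δ 1 0) ^ 2 := by
  simp only [Matrix.SpecialLinearGroup.coe_mul, Matrix.SpecialLinearGroup.coe_inv,
    Matrix.adjugate_fin_two, Matrix.mul_apply, Fin.sum_univ_two, Matrix.of_apply,
    Matrix.cons_val_zero, Matrix.cons_val_one, Matrix.cons_val', Matrix.cons_val_fin_one]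
  ring

/-- An element of `SL(2, ℤ)` with `trace² = 4` is conjugate in `SL(2, ℤ)` to an upper triangular
matrix. -/
theorem exists_conj_lower_left_eq_zero (γ : SL(2, ℤ))
    (hγ : (γ : Matrix (Fin 2) (Fin 2) ℤ).trace ^ 2 = 4) :
    ∃ δ : SL(2, ℤ), ((δ⁻¹ * γ * δ : SL(2, ℤ)) : Matrix (Fin 2) (Fin 2) ℤ) 1 0 = 0 := by
  have hdet : γ 0 0 * γ 1 1 - γ 0 1 * γ 1 0 = 1 := by
    have := γ.det_coe
    rwa [Matrix.det_fin_two] at this
  rw [Matrix.trace_fin_two] at hγ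
  by_cases hr : γ 1 0 = 0
  · exact ⟨1, by simpa using hr⟩
  -- ε = ±1 with p + s = 2 ε
  obtain ⟨ε, hε, hps⟩ : ∃ ε : ℤ, ε ^ 2 = 1 ∧ γ 0 0 + γ 1 1 = 2 * ε := by
    have h4 : (γ 0 0 + γ 1 1 - 2) * (γ 0 0 + γ 1 1 + 2) = 0 := by ring_nf; ring_nf at hγ; omega
    rcases mul_eq_zero.mp h4 with h | h
    · exact ⟨1, by norm_num, by omega⟩
    · exact ⟨-1, by norm_num, by omega⟩
  set a₀ : ℤ := ε - γ 1 1 with ha₀
  set c₀ : ℤ := γ 1 0 with hc₀
  have hQ : γ 1 0 * a₀ ^ 2 + (γ 1 1 - γ 0 0) * a₀ * c₀ - γ 0 1 * c₀ ^ 2 = 0 := by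
    have hp : γ 0 0 = 2 * ε - γ 1 1 := by omega
    rw [ha₀, hc₀, hp]
    have h1 : (2 * ε - γ 1 1) * γ 1 1 - γ 0 1 * γ 1 0 = 1 := by rw [← hp]; exact hdet
    linear_combination (γ 1 0) * h1 - (γ 1 0) * hε
  -- divide by the gcd
  set g : ℤ := (Int.gcd a₀ c₀ : ℤ) with hg
  have hg0 : g ≠ 0 := by
    rw [hg]
    exact_mod_cast (Int.gcd_pos_of_ne_zero_right a₀ hr).ne'
  obtain ⟨a, ha⟩ : g ∣ a₀ := Int.gcd_dvd_left a₀ c₀
  obtain ⟨c, hc⟩ : g ∣ c₀ := Int.gcd_dvd_right a₀ c₀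
  have hcop : IsCoprime a c := by
    rw [Int.isCoprime_iff_gcd_eq_one]
    have h1 : Int.gcd a₀ c₀ = Int.gcd a₀ c₀ * Int.gcd a c := by
      conv_lhs => rw [ha, hc, Int.gcd_mul_left]
      simp [hg]
    have hpos : 0 < Int.gcd a₀ c₀ := Int.gcd_pos_of_ne_zero_right a₀ hr
    nlinarith [Nat.eq_of_mul_eq_mul_left hpos (by simpa using h1.symm : Int.gcd a₀ c₀ * Int.gcd a c = Int.gcd a₀ c₀ * 1)]
  obtain ⟨δ, hδ0, hδ1⟩ := hcop.exists_SL2_col 0
  refine ⟨δ, ?_⟩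
  rw [conj_lower_left, hδ0, hδ1]
  have hQ' : g ^ 2 * (γ 1 0 * a ^ 2 + (γ 1 1 - γ 0 0) * a * c - γ 0 1 * c ^ 2) = 0 := by
    rw [ha, hc] at hQ
    linear_combination hQ
  rcases mul_eq_zero.mp hQ' with h | h
  · exact absurd (pow_eq_zero_iff (two_ne_zero) |>.mp h) hg0
  · exact h

/-- translation by a power of `T` preserves the filter `atImInfty`. -/
theorem tendsto_T_zpow_smul_atImInfty (n : ℤ) :
    Tendsto (fun w : ℍ => ModularGroup.T ^ n • w) atImInfty atImInfty := by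
  rw [atImInfty, tendsto_comap_iff]
  have : (UpperHalfPlane.im ∘ fun w : ℍ => ModularGroup.T ^ n • w) = UpperHalfPlane.im := by
    funext w
    exact ModularGroup.im_T_zpow_smul w n
  rw [this]
  exact tendsto_comap

end H86

/-- **Part C**: the period of the equivariant primitive along a parabolic element (or `±1`)
vanishes. -/
theorem partC (N : ℕ) [NeZero N] {f : CuspForm (Gamma0 N) 2} {F : ℍ → ℂ}
    (hF : HasEquivariantPrimitive N f F) (γ : Gamma0 N)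
    (hγ : ((γ : SL(2, ℤ)) : Matrix (Fin 2) (Fin 2) ℤ).trace ^ 2 = 4) (z : ℍ) :
    F ((γ : SL(2, ℤ)) • z) = F z := by
  obtain ⟨c, hc⟩ := hF.2.2.1 γ
  obtain ⟨δ, hδ⟩ := H86.exists_conj_lower_left_eq_zero (γ : SL(2, ℤ)) hγ
  obtain ⟨n, hn⟩ := ModularGroup.exists_eq_T_zpow_of_c_eq_zero hδ
  obtain ⟨L, hL⟩ := hF.2.2.2 δ
  -- `γ • (δ • w) = δ • (T ^ n • w)`
  have hconj : ∀ w : ℍ, (γ : SL(2, ℤ)) • (δ • w) = δ • (ModularGroup.T ^ n • w) := by
    intro w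
    rw [← hn w, ← mul_smul, ← mul_smul]
    congr 1
    group
  -- the constant is a difference of two functions with the same limit
  have h1 : Tendsto (fun w : ℍ => F (δ • (ModularGroup.T ^ n • w))) atImInfty (𝓝 L) :=
    hL.comp (H86.tendsto_T_zpow_smul_atImInfty n)
  have h2 : Tendsto (fun w : ℍ => F (δ • (ModularGroup.T ^ n • w)) - F (δ • w)) atImInfty
      (𝓝 (L - L)) := h1.sub hL
  have h3 : (fun w : ℍ => F (δ • (ModularGroup.T ^ n • w)) - F (δ • w)) = fun _ => c := by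
    funext w
    rw [← hconj w]
    exact hc (δ • w)
  rw [h3, sub_self] at h2
  have hc0 : c = 0 := tendsto_nhds_unique tendsto_const_nhds h2
  have := hc z
  rw [hc0, sub_eq_zero] at this
  exact this

end Fermat.Agent.S21
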