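import Mathlib
import Fermat.Prelude.Def_ModularCurve_PeriodHomPair
import Fermat.Agent.S21.Assembly
import Fermat.Agent.S21.H20_Primitive
import Fermat.Agent.S21.H78_DCore
import Fermat.Agent.S21.H86_PartC

/-!
# S21, part D (glue): injectivity of the period pairing from the max-modulus core
-/

set_option autoImplicit false

open ModularCurve ModularCurve.Period UpperHalfPlane CongruenceSubgroup Filter Topology Function
open scoped MatrixGroups ModularForm Real Manifold Pointwise ComplexConjugate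

namespace Fermat.Agent.S21

/-- The anti-holomorphic involution `z ↦ -conj z` of the upper half-plane. -/
noncomputable def negConj (z : ℍ) : ℍ :=
  ⟨-conj (z : ℂ), by simpa using z.im_pos⟩

@[simp] theorem coe_negConj (z : ℍ) : ((negConj z : ℍ) : ℂ) = -conj (z : ℂ) := rfl

@[simp] theorem negConj_negConj (z : ℍ) : negConj (negConj z) = z := by
  ext
  simp

@[simp] theorem im_negConj (z : ℍ) : (negConj z).im = z.im := by
  change (-conj (z : ℂ)).im = (z : ℂ).im
  simp

theorem tendsto_negConj : Tendsto negConj atImInfty atImInfty := by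
  rw [atImInfty, tendsto_comap_iff]
  have : (im ∘ negConj) = im := by
    funext z
    simp
  rw [this]
  exact tendsto_comap

theorem jConjSL_smul_negConj (γ : SL(2, ℤ)) (z : ℍ) :
    (jConjSL γ) • (negConj z) = negConj (γ • z) := by
  ext
  rw [coe_specialLinearGroup_apply, coe_negConj, coe_negConj, coe_specialLinearGroup_apply]
  simp only [jConjSL_coe, jConjMat_apply_zero_zero, jConjMat_apply_zero_one,
    jConjMat_apply_one_zero, jConjMat_apply_one_one, map_div₀, map_add, map_mul]
  simp only [algebraMap_int_eq, Int.coe_castRingHom, Int.cast_neg, Complex.ofReal_neg,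
    Complex.ofReal_intCast, map_intCast]
  rw [← neg_div]
  congr 1 <;> ring

/-- `z ↦ conj (F (-conj z))` is a primitive of `z ↦ -conj (f (-conj z))`. -/
theorem hasDerivAt_conj_comp_negConj {F : ℍ → ℂ} {f : ℍ → ℂ}
    (hF : ∀ τ : ℍ, HasDerivAt (F ∘ ofComplex) (f τ) ↑τ) (τ : ℍ) :
    HasDerivAt ((fun z : ℍ => conj (F (negConj z))) ∘ ofComplex)
      (-conj (f (negConj τ))) ↑τ := by
  -- `g w = F (ofComplex (-w))` has derivative `-f (negConj τ)` at `conj τ`
  have h1 : HasDerivAt (fun w : ℂ => (F ∘ ofComplex) (-w)) (-(f (negConj τ)))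
      (conj (τ : ℂ)) := by
    have h0 : HasDerivAt (F ∘ ofComplex) (f (negConj τ)) (-(conj (τ : ℂ))) := hF (negConj τ)
    have := h0.comp (conj (τ : ℂ)) (hasDerivAt_neg (conj (τ : ℂ)))
    rw [mul_neg_one] at this
    exact this
  have h2 := h1.conj_conj
  rw [Complex.conj_conj] at h2
  have h3 : conj (-(f (negConj τ))) = -conj (f (negConj τ)) := by simp
  rw [h3] at h2
  refine h2.congr_of_eventuallyEq ?_
  filter_upwards [isOpen_upperHalfPlaneSet.mem_nhds τ.im_pos] with z hz
  have hz' : 0 < (-conj z).im := by simpa using hz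
  simp only [Function.comp_apply]
  congr 2
  rw [ofComplex_apply_of_im_pos hz, ofComplex_apply_of_im_pos hz']
  rfl

/-- `δ T^N δ⁻¹ ∈ Γ₀(N)`. -/
theorem conj_T_pow_mem_Gamma0 (N : ℕ) (δ : SL(2, ℤ)) :
    δ * ModularGroup.T ^ N * δ⁻¹ ∈ Gamma0 N := by
  have h1 : ModularGroup.T ^ N ∈ Gamma N := by
    have := ModularGroup_T_pow_mem_Gamma (N : ℤ) (N : ℤ) dvd_rfl
    simpa using this
  have h2 : δ * ModularGroup.T ^ N * δ⁻¹ ∈ Gamma N := (Gamma_normal N).conj_mem _ h1 δ
  rw [Gamma_mem] at h2
  rw [Gamma0_mem]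
  exact h2.2.2.1

theorem trace_conj_T_pow (N : ℕ) (δ : SL(2, ℤ)) :
    ((δ * ModularGroup.T ^ N * δ⁻¹ : SL(2, ℤ)) : Matrix (Fin 2) (Fin 2) ℤ).trace = 2 := by
  have h1 : ((δ * ModularGroup.T ^ N * δ⁻¹ : SL(2, ℤ)) : Matrix (Fin 2) (Fin 2) ℤ)
      = (δ : Matrix (Fin 2) (Fin 2) ℤ) * ((ModularGroup.T ^ N : SL(2, ℤ)) : Matrix (Fin 2) (Fin 2) ℤ)
        * ((δ⁻¹ : SL(2, ℤ)) : Matrix (Fin 2) (Fin 2) ℤ) := by
    simp
  rw [h1, Matrix.trace_mul_comm, ← mul_assoc]
  have h2 : ((δ⁻¹ : SL(2, ℤ)) : Matrix (Fin 2) (Fin 2) ℤ) * (δ : Matrix (Fin 2) (Fin 2) ℤ) = 1 := by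
    rw [← Matrix.SpecialLinearGroup.coe_mul, inv_mul_cancel, Matrix.SpecialLinearGroup.coe_one]
  rw [h2, one_mul]
  have h3 := ModularGroup.coe_T_zpow (N : ℤ)
  rw [zpow_natCast] at h3
  rw [h3, Matrix.trace_fin_two_of]
  norm_num

section Combo

variable {N : ℕ} [NeZero N] {a b : CuspForm (Gamma0 N) 2} {Fa Fb : ℍ → ℂ}

/-- The key step of part D: if `p + conj q = 0` forces `Re (u p + v q) = 0`, then
`exp (u Fa + v G)` (with `G = conj ∘ Fb ∘ negConj`) is constant, so its logarithmic derivative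
`u a - v conj (b ∘ negConj)` vanishes. -/
theorem combo_deriv_zero
    (hFa : HasEquivariantPrimitive N a Fa) (hFb : HasEquivariantPrimitive N b Fb)
    (hrel : ∀ (γ : Gamma0 N) (z : ℍ),
      (Fa ((γ : SL(2, ℤ)) • z) - Fa z)
        + (Fb (negConj ((γ : SL(2, ℤ)) • z)) - Fb (negConj z)) = 0)
    (u v : ℂ) (huv : ∀ p q : ℂ, p + conj q = 0 → (u * p + v * q).re = 0) (τ : ℍ) :
    u * a τ + v * (-conj (b (negConj τ))) = 0 := by
  set G : ℍ → ℂ := fun z => conj (Fb (negConj z)) with hG
  set H : ℍ → ℂ := fun z => u * Fa z + v * G z with hH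
  set E : ℍ → ℂ := fun z => Complex.exp (H z) with hE
  have hHd : ∀ τ : ℍ, HasDerivAt (H ∘ ofComplex)
      (u * a τ + v * (-conj (b (negConj τ)))) ↑τ := by
    intro τ
    have h1 := (hFa.1 τ).const_mul u
    have h2 := (hasDerivAt_conj_comp_negConj hFb.1 τ).const_mul v
    exact h1.add h2
  have hEd : ∀ τ : ℍ, HasDerivAt (E ∘ ofComplex)
      (Complex.exp (H τ) * (u * a τ + v * (-conj (b (negConj τ))))) ↑τ := by
    intro τ
    have h1 := (hHd τ).cexp
    simp only [Function.comp_apply, ofComplex_apply] at h1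
    exact h1
  -- periods of `Fa` and `G` along parabolic conjugates of `T ^ N` vanish
  have hFa_per : ∀ (δ : SL(2, ℤ)) (w : ℍ),
      Fa (δ • (ModularGroup.T ^ N • w)) = Fa (δ • w) := by
    intro δ w
    have h := partC N hFa ⟨δ * ModularGroup.T ^ N * δ⁻¹, conj_T_pow_mem_Gamma0 N δ⟩
      (by rw [trace_conj_T_pow]; norm_num) (δ • w)
    rw [← h]
    congr 1
    simp only [← mul_smul]
    congr 1
    group
  have hFb_per : ∀ (δ : SL(2, ℤ)) (w : ℍ),
      Fb (negConj (δ • (ModularGroup.T ^ N • w))) = Fb (negConj (δ • w)) := by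
    intro δ w
    have hmem : jConjSL (δ * ModularGroup.T ^ N * δ⁻¹) ∈ Gamma0 N :=
      jConjSL_mem_Gamma0 (conj_T_pow_mem_Gamma0 N δ)
    have h := partC N hFb ⟨jConjSL (δ * ModularGroup.T ^ N * δ⁻¹), hmem⟩
      (by
        show ((jConjSL (δ * ModularGroup.T ^ N * δ⁻¹) : SL(2, ℤ)) :
          Matrix (Fin 2) (Fin 2) ℤ).trace ^ 2 = 4
        rw [jConjSL_coe, jConjMat_trace, trace_conj_T_pow]; norm_num) (negConj (δ • w))
    rw [← h]
    congr 1
    show negConj (δ • (ModularGroup.T ^ N • w))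
      = jConjSL (δ * ModularGroup.T ^ N * δ⁻¹) • negConj (δ • w)
    rw [jConjSL_smul_negConj]
    congr 1
    simp only [← mul_smul]
    congr 1
    group
  obtain ⟨c, hc⟩ := partD_core N E (fun τ => (hEd τ).differentiableAt)
    (by
      intro γ hγ z
      simp only [hE, Complex.norm_exp]
      congr 1
      have h1 := hrel ⟨γ, hγ⟩ z
      have h2 := huv (Fa (γ • z) - Fa z) (G (γ • z) - G z) (by
        simp only [hG, map_sub, Complex.conj_conj]
        exact h1)
      have h3 : H (γ • z) = H z + (u * (Fa (γ • z) - Fa z) + v * (G (γ • z) - G z)) := by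
        simp only [hH]; ring
      rw [h3, Complex.add_re, h2, add_zero])
    (by
      intro δ w
      simp only [hE, hH, hG]
      rw [hFa_per δ w, hFb_per δ w])
    (by
      intro δ
      obtain ⟨L, hL⟩ := hFa.2.2.2 δ
      obtain ⟨L', hL'⟩ := hFb.2.2.2 (jConjSL δ)
      refine ⟨Complex.exp (u * L + v * conj L'), ?_⟩
      have h1 : Tendsto (fun w : ℍ => Fb (negConj (δ • w))) atImInfty (𝓝 L') := by
        have := hL'.comp tendsto_negConj
        refine this.congr fun w => ?_
        simp only [Function.comp_apply, jConjSL_smul_negConj]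
      have h2 : Tendsto (fun w : ℍ => G (δ • w)) atImInfty (𝓝 (conj L')) :=
        (Complex.continuous_conj.tendsto L').comp h1
      have h3 : Tendsto (fun w : ℍ => H (δ • w)) atImInfty (𝓝 (u * L + v * conj L')) :=
        (hL.const_mul u).add (h2.const_mul v)
      exact (Complex.continuous_exp.tendsto _).comp h3)
  -- `E` is constant, so its derivative vanishes
  have h0 : HasDerivAt (E ∘ ofComplex) 0 ↑τ := by
    refine (hasDerivAt_const (τ : ℂ) c).congr_of_eventuallyEq ?_
    filter_upwards with z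
    simp only [Function.comp_apply, hc]
  have h1 := (hEd τ).unique h0
  exact (mul_eq_zero.mp h1).resolve_left (Complex.exp_ne_zero _)

end Combo

/-- **Part D**: injectivity of the period pairing. -/
theorem partD (N : ℕ) [NeZero N] (a b : CuspForm (Gamma0 N) 2)
    (h : periodMap N a + charInvolution N ℂ ℂ (periodMap N b) = 0) : a = 0 ∧ b = 0 := by
  obtain ⟨Fa, hFa⟩ := partA N a
  obtain ⟨Fb, hFb⟩ := partA N b
  have hrel : ∀ (γ : Gamma0 N) (z : ℍ),
      (Fa ((γ : SL(2, ℤ)) • z) - Fa z)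
        + (Fb (negConj ((γ : SL(2, ℤ)) • z)) - Fb (negConj z)) = 0 := by
    intro γ z
    have h1 := DFunLike.congr_fun h (Additive.ofMul γ)
    rw [AddMonoidHom.add_apply, charInvolution_apply, toMul_ofMul,
      periodMap_apply_of_hasEquivariantPrimitive hFa γ z,
      periodMap_apply_of_hasEquivariantPrimitive hFb (jConjGamma0 N γ) (negConj z),
      jConjGamma0_coe, jConjSL_smul_negConj] at h1
    exact h1
  have key1 : ∀ τ : ℍ, a τ - conj (b (negConj τ)) = 0 := by
    intro τ
    have := combo_deriv_zero hFa hFb hrel 1 1 (by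
      intro p q hpq
      have : (1 * p + 1 * q).re = (p + conj q).re := by simp
      rw [this, hpq]; simp) τ
    linear_combination this
  have key2 : ∀ τ : ℍ, a τ + conj (b (negConj τ)) = 0 := by
    intro τ
    have := combo_deriv_zero hFa hFb hrel (-Complex.I) Complex.I (by
      intro p q hpq
      have : (-Complex.I * p + Complex.I * q).re = (p + conj q).im := by simp
      rw [this, hpq]; simp) τ
    have hI : Complex.I ^ 2 = -1 := Complex.I_sq
    linear_combination Complex.I * this + (a τ + conj (b (negConj τ))) * hI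
  have ha : ∀ τ : ℍ, a τ = 0 := by
    intro τ
    have h1 := key1 τ
    have h2 := key2 τ
    have : (2 : ℂ) * a τ = 0 := by linear_combination h1 + h2
    exact (mul_eq_zero.mp this).resolve_left two_ne_zero
  have hb : ∀ τ : ℍ, b τ = 0 := by
    intro τ
    have h1 := key1 (negConj τ)
    rw [ha, zero_sub, neg_eq_zero, negConj_negConj] at h1
    simpa using h1
  exact ⟨CuspForm.ext ha, CuspForm.ext hb⟩

end Fermat.Agent.S21
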