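import Mathlib
import Fermat.Prelude.Def_ModularCurve_PeriodHomPair
import Fermat.Prelude.Def_ModularCurve_GenusNumerics
import Fermat.Agent.S21.Assembly
import Fermat.Agent.S21.H20_Primitive
import Fermat.Agent.S21.H86_PartC
import Fermat.Agent.S21.H20_DGlue

/-!
# S21: the Eichler–Shimura statement from the dimension count alone

Parts A, B, C, D are proved; what remains is the dimension count (E1 and S20).
-/

set_option autoImplicit false

open ModularCurve ModularCurve.Period UpperHalfPlane CongruenceSubgroup
open scoped MatrixGroups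

namespace Fermat.Agent.S21

/-- Part C in the form used by the assembly. -/
theorem periodMap_mem_parabolicHoms (N : ℕ) [NeZero N] (f : CuspForm (Gamma0 N) 2) :
    periodMap N f ∈ parabolicHoms ℂ (Gamma0 N) ℂ := by
  obtain ⟨F, hF⟩ := partA N f
  rw [mem_parabolicHoms_iff]
  intro γ hγ
  rw [periodMap_apply_of_hasEquivariantPrimitive hF γ UpperHalfPlane.I, partC N hF γ hγ, sub_self]

/-- The period pairing is injective and lands in the parabolic homomorphisms (no dimension count
needed). -/
theorem periodHomPair_injective (N : ℕ) [NeZero N] :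
    Function.Injective (ModularCurve.periodHomPair N) := by
  obtain ⟨pml, hpml, hdef⟩ := periodHomPair_def N (existsPeriodMapLinear_of_partA (partA N))
  have hform : ∀ f g : CuspForm (Gamma0 N) 2, periodHomPair N (f, g)
      = periodMap N (f + g) + charInvolution N ℂ ℂ (periodMap N (f - g)) := by
    intro f g
    rw [hdef, ← hpml, ← hpml]
    simp only [LinearMap.coprod_apply, LinearMap.comp_apply, LinearMap.add_apply,
      LinearMap.sub_apply, LinearMap.id_apply, map_add, map_sub]
    abel
  rw [injective_iff_map_eq_zero]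
  rintro ⟨f, g⟩ h
  rw [hform] at h
  obtain ⟨h1, h2⟩ := partD N _ _ h
  have hf : f = 0 := by
    have : (2 : ℂ) • f = 0 := by
      rw [two_smul]
      calc f + f = (f + g) + (f - g) := by abel
        _ = 0 := by rw [h1, h2, add_zero]
    exact (smul_eq_zero.mp this).resolve_left two_ne_zero
  have hg : g = 0 := by
    rw [hf, zero_add] at h1
    exact h1
  rw [hf, hg]
  rfl

/-- The Eichler–Shimura statement, given only the dimension count: the bound `E1` on the
parabolic homomorphisms and the dimension formula `S20`. -/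
theorem result_of_dimension_count (N : ℕ) [NeZero N]
    (hE : Module.Finite ℂ (parabolicHoms ℂ (Gamma0 N) ℂ) ∧
      (Module.finrank ℂ (parabolicHoms ℂ (Gamma0 N) ℂ) : ℚ) ≤ 2 * genusFormula N)
    (hS20 : (Module.finrank ℂ (CuspForm (Gamma0 N) 2) : ℚ) = genusFormula N) :
    Function.Injective (ModularCurve.periodHomPair N)
      ∧ LinearMap.range (ModularCurve.periodHomPair N)
          = ModularCurve.Period.parabolicHoms ℂ (CongruenceSubgroup.Gamma0 N) ℂ :=
  result_of_parts (partA N) (periodMap_mem_parabolicHoms N) (partD N) hE hS20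

/-- By-product (upper bound half of S20): `2 * dim S₂(Γ₀(N)) ≤ dim Hom_par`. -/
theorem two_mul_finrank_cuspForm_le (N : ℕ) [NeZero N]
    [Module.Finite ℂ (parabolicHoms ℂ (Gamma0 N) ℂ)] :
    2 * Module.finrank ℂ (CuspForm (Gamma0 N) 2)
      ≤ Module.finrank ℂ (parabolicHoms ℂ (Gamma0 N) ℂ) := by
  obtain ⟨pml, hpml, hdef⟩ := periodHomPair_def N (existsPeriodMapLinear_of_partA (partA N))
  have hle : LinearMap.range (periodHomPair N) ≤ parabolicHoms ℂ (Gamma0 N) ℂ := by
    rintro _ ⟨⟨f, g⟩, rfl⟩
    rw [hdef]
    simp only [LinearMap.coprod_apply, LinearMap.comp_apply, LinearMap.add_apply,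
      LinearMap.sub_apply, LinearMap.id_apply, hpml]
    exact Submodule.add_mem _
      (Submodule.add_mem _ (periodMap_mem_parabolicHoms N f)
        (charInvolution_mem_parabolicHoms N ℂ ℂ (periodMap_mem_parabolicHoms N f)))
      (Submodule.sub_mem _ (periodMap_mem_parabolicHoms N g)
        (charInvolution_mem_parabolicHoms N ℂ ℂ (periodMap_mem_parabolicHoms N g)))
  let ι : (CuspForm (Gamma0 N) 2 × CuspForm (Gamma0 N) 2) →ₗ[ℂ] parabolicHoms ℂ (Gamma0 N) ℂ :=
    (periodHomPair N).codRestrict _ (fun x => hle ⟨x, rfl⟩)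
  have hιinj : Function.Injective ι :=
    fun x y hxy => periodHomPair_injective N (congrArg Subtype.val hxy)
  have : Module.Finite ℂ (CuspForm (Gamma0 N) 2 × CuspForm (Gamma0 N) 2) :=
    Module.Finite.of_injective ι hιinj
  have : Module.Finite ℂ (CuspForm (Gamma0 N) 2) :=
    Module.Finite.of_injective (LinearMap.inl ℂ _ (CuspForm (Gamma0 N) 2)) LinearMap.inl_injective
  have h1 := LinearMap.finrank_le_finrank_of_injective hιinj
  rw [Module.finrank_prod] at h1
  omega

end Fermat.Agent.S21
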