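import Mathlib

set_option autoImplicit false

/-!
# Linear algebra helpers for the cohomological upper bound (S21, part E1)

For an endomorphism `R` of a finite-dimensional `ℂ`-vector space with `R ^ M = 1`, `0 < M`,
we study the "norm" operator `σ = ∑_{k<M} R^k`.
-/

namespace Fermat.Agent.S21.H75

open Module

variable {V : Type*} [AddCommGroup V] [Module ℂ V]

/-- the norm operator `∑_{k<M} R^k` -/
noncomputable def normOp (R : V →ₗ[ℂ] V) (M : ℕ) : V →ₗ[ℂ] V :=
  ∑ k ∈ Finset.range M, R ^ k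

lemma normOp_apply (R : V →ₗ[ℂ] V) (M : ℕ) (v : V) :
    normOp R M v = ∑ k ∈ Finset.range M, (R ^ k) v := by
  simp [normOp, LinearMap.sum_apply]

lemma normOp_mul_sub_one (R : V →ₗ[ℂ] V) (M : ℕ) :
    normOp R M * (R - 1) = R ^ M - 1 := by
  unfold normOp
  exact geom_sum_mul R M

lemma sub_one_mul_normOp (R : V →ₗ[ℂ] V) (M : ℕ) :
    (R - 1) * normOp R M = R ^ M - 1 := by
  unfold normOp
  exact mul_geom_sum R M

lemma normOp_comp_self {R : V →ₗ[ℂ] V} {M : ℕ} (hR : R ^ M = 1) (v : V) :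
    normOp R M (R v) = normOp R M v := by
  have h := normOp_mul_sub_one R M
  rw [hR, sub_self] at h
  have h2 := congrArg (fun f : V →ₗ[ℂ] V => f v) h
  simp only [Module.End.mul_apply, LinearMap.sub_apply, Module.End.one_apply, map_sub,
    LinearMap.zero_apply] at h2
  exact sub_eq_zero.mp h2

lemma self_comp_normOp {R : V →ₗ[ℂ] V} {M : ℕ} (hR : R ^ M = 1) (v : V) :
    R (normOp R M v) = normOp R M v := by
  have h := sub_one_mul_normOp R M
  rw [hR, sub_self] at h
  have h2 := congrArg (fun f : V →ₗ[ℂ] V => f v) h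
  simp only [Module.End.mul_apply, LinearMap.sub_apply, Module.End.one_apply,
    LinearMap.zero_apply] at h2
  exact sub_eq_zero.mp h2

lemma pow_apply_of_fixed {R : V →ₗ[ℂ] V} {v : V} (hv : R v = v) (k : ℕ) : (R ^ k) v = v := by
  induction k with
  | zero => simp
  | succ k ih => rw [pow_succ, Module.End.mul_apply, hv, ih]

lemma normOp_of_fixed {R : V →ₗ[ℂ] V} (M : ℕ) {v : V} (hv : R v = v) :
    normOp R M v = (M : ℂ) • v := by
  rw [normOp_apply]
  simp [pow_apply_of_fixed hv, Finset.sum_const, Nat.cast_smul_eq_nsmul]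

lemma range_sub_one_le_ker_normOp {R : V →ₗ[ℂ] V} {M : ℕ} (hR : R ^ M = 1) :
    LinearMap.range (R - 1) ≤ LinearMap.ker (normOp R M) := by
  rintro _ ⟨w, rfl⟩
  rw [LinearMap.mem_ker, LinearMap.sub_apply, Module.End.one_apply, map_sub,
    normOp_comp_self hR, sub_self]

lemma range_normOp_eq_ker_sub_one {R : V →ₗ[ℂ] V} {M : ℕ} (hM : 0 < M) (hR : R ^ M = 1) :
    LinearMap.range (normOp R M) = LinearMap.ker (R - 1) := by
  apply le_antisymm
  · rintro _ ⟨w, rfl⟩
    rw [LinearMap.mem_ker, LinearMap.sub_apply, Module.End.one_apply, self_comp_normOp hR,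
      sub_self]
  · intro v hv
    rw [LinearMap.mem_ker, LinearMap.sub_apply, Module.End.one_apply, sub_eq_zero] at hv
    refine ⟨((M : ℂ)⁻¹) • v, ?_⟩
    rw [map_smul, normOp_of_fixed M hv, smul_smul, inv_mul_cancel₀, one_smul]
    exact_mod_cast hM.ne'

/-- rank-nullity for the norm operator: `dim ker σ + dim ker (R - 1) = dim V`. -/
lemma finrank_ker_normOp_add [FiniteDimensional ℂ V] {R : V →ₗ[ℂ] V} {M : ℕ} (hM : 0 < M)
    (hR : R ^ M = 1) :
    finrank ℂ (LinearMap.ker (normOp R M)) + finrank ℂ (LinearMap.ker (R - 1)) = finrank ℂ V := by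
  have h := LinearMap.finrank_range_add_finrank_ker (normOp R M)
  rw [range_normOp_eq_ker_sub_one hM hR] at h
  omega

end Fermat.Agent.S21.H75
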