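import Mathlib
import Fermat.Agent.S21.H75_LinAlg

set_option autoImplicit false

/-!
# Shapiro's lemma by hand: cocycles on `G ⧸ Γ` attached to homomorphisms `Γ → ℂ`
-/

namespace Fermat.Agent.S21.H75

open Module

variable {G : Type*} [Group G] (Γ : Subgroup G)

/-- precomposition with the action of `g` on `G ⧸ Γ` -/
noncomputable def R (g : G) : ((G ⧸ Γ) → ℂ) →ₗ[ℂ] ((G ⧸ Γ) → ℂ) :=
  LinearMap.funLeft ℂ ℂ (fun q => g • q)

@[simp] lemma R_apply (g : G) (v : (G ⧸ Γ) → ℂ) (q : G ⧸ Γ) : R Γ g v q = v (g • q) := rfl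

lemma R_mul (g h : G) : R Γ (g * h) = R Γ h * R Γ g := by
  ext v q
  simp [mul_smul]

lemma R_one : R Γ (1 : G) = 1 := by
  ext v q
  simp

lemma R_pow (g : G) (n : ℕ) : R Γ (g ^ n) = (R Γ g) ^ n := by
  induction n with
  | zero => simp [R_one]
  | succ n ih => rw [pow_succ', R_mul, ih, pow_succ]

/-- `κ(g, q) = (s (g • q))⁻¹ * g * s q ∈ Γ` for the section `s = Quotient.out`. -/
noncomputable def kappa (g : G) (q : G ⧸ Γ) : Γ :=
  ⟨(Quotient.out (g • q))⁻¹ * (g * Quotient.out q), by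
    rw [← QuotientGroup.eq, QuotientGroup.out_eq']
    conv_lhs => rw [← QuotientGroup.out_eq' q]
    rfl⟩

lemma kappa_coe (g : G) (q : G ⧸ Γ) :
    (kappa Γ g q : G) = (Quotient.out (g • q))⁻¹ * (g * Quotient.out q) := rfl

lemma kappa_mul (g h : G) (q : G ⧸ Γ) :
    kappa Γ (g * h) q = kappa Γ g (h • q) * kappa Γ h q := by
  apply Subtype.ext
  simp only [kappa_coe, Subgroup.coe_mul, mul_smul]
  group

/-- the cocycle attached to `φ : Γ → ℂ` -/
noncomputable def coc (φ : Additive Γ →+ ℂ) (g : G) : (G ⧸ Γ) → ℂ :=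
  fun q => φ (Additive.ofMul (kappa Γ g q))

lemma coc_apply (φ : Additive Γ →+ ℂ) (g : G) (q : G ⧸ Γ) :
    coc Γ φ g q = φ (Additive.ofMul (kappa Γ g q)) := rfl

/-- A (right) cocycle `c : G → V`: `c (g h) = R_h (c g) + c h`. -/
def IsCoc (c : G → ((G ⧸ Γ) → ℂ)) : Prop :=
  ∀ g h : G, c (g * h) = R Γ h (c g) + c h

lemma isCoc_coc (φ : Additive Γ →+ ℂ) : IsCoc Γ (coc Γ φ) := by
  intro g h
  ext q
  simp only [coc_apply, Pi.add_apply, R_apply, kappa_mul, ofMul_mul, map_add]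

/-- coboundary of `v` -/
noncomputable def cob (v : (G ⧸ Γ) → ℂ) (g : G) : (G ⧸ Γ) → ℂ := R Γ g v - v

lemma isCoc_cob (v : (G ⧸ Γ) → ℂ) : IsCoc Γ (cob Γ v) := by
  intro g h
  simp only [cob, R_mul, Module.End.mul_apply, map_sub]
  abel

lemma IsCoc.add {c d : G → ((G ⧸ Γ) → ℂ)} (hc : IsCoc Γ c) (hd : IsCoc Γ d) :
    IsCoc Γ (c + d) := by
  intro g h
  simp only [Pi.add_apply, hc g h, hd g h, map_add]
  abel

variable {Γ}

lemma IsCoc.map_one {c : G → ((G ⧸ Γ) → ℂ)} (hc : IsCoc Γ c) : c 1 = 0 := by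
  have h := hc 1 1
  rw [mul_one, R_one, Module.End.one_apply] at h
  exact left_eq_add.mp h |> fun h => by simpa using h

lemma IsCoc.map_inv {c : G → ((G ⧸ Γ) → ℂ)} (hc : IsCoc Γ c) (g : G) :
    c g⁻¹ = - R Γ g⁻¹ (c g) := by
  have h := hc g g⁻¹
  rw [mul_inv_cancel, hc.map_one] at h
  exact eq_neg_of_add_eq_zero_right h.symm

lemma IsCoc.map_pow {c : G → ((G ⧸ Γ) → ℂ)} (hc : IsCoc Γ c) (g : G) (n : ℕ) :
    c (g ^ n) = normOp (R Γ g) n (c g) := by
  induction n with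
  | zero => simp [hc.map_one, normOp]
  | succ n ih =>
    rw [pow_succ', hc g (g ^ n), ih, normOp_apply, normOp_apply, Finset.sum_range_succ,
      R_pow]
    abel

/-- a cocycle vanishing on a generating set vanishes identically -/
lemma IsCoc.eq_zero_of_closure {c : G → ((G ⧸ Γ) → ℂ)} (hc : IsCoc Γ c) {s : Set G}
    (hs : Subgroup.closure s = ⊤) (h0 : ∀ g ∈ s, c g = 0) (g : G) : c g = 0 := by
  have hg : g ∈ Subgroup.closure s := by rw [hs]; trivial
  induction hg using Subgroup.closure_induction with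
  | mem x hx => exact h0 x hx
  | one => exact hc.map_one
  | mul x y _ _ hx hy => rw [hc x y, hx, hy, map_zero, add_zero]
  | inv x _ hx => rw [hc.map_inv, hx, map_zero, neg_zero]

end Fermat.Agent.S21.H75
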