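import Mathlib
import Fermat.Agent.S21.H75_Cocycle

set_option autoImplicit false
set_option linter.unusedSectionVars false

/-!
# The dimension count (abstract form)
-/

namespace Fermat.Agent.S21.H75

open Module

variable {G : Type*} [Group G] (Γ : Subgroup G)

section SumZero

variable [Fintype (G ⧸ Γ)]

/-- the sum functional on `V = (G ⧸ Γ) → ℂ` -/
noncomputable def sumFun : ((G ⧸ Γ) → ℂ) →ₗ[ℂ] ℂ :=
  ∑ q : G ⧸ Γ, LinearMap.proj q

lemma sumFun_apply (v : (G ⧸ Γ) → ℂ) : sumFun Γ v = ∑ q, v q := by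
  simp [sumFun, LinearMap.sum_apply]

lemma sumFun_R (g : G) (v : (G ⧸ Γ) → ℂ) : sumFun Γ (R Γ g v) = sumFun Γ v := by
  rw [sumFun_apply, sumFun_apply]
  exact Fintype.sum_equiv (MulAction.toPerm g) _ _ (fun q => rfl)

omit [Fintype (G ⧸ Γ)] in
/-- `R_g w - w` lies in `range (R_S - 1) ⊔ range (R_U - 1)` whenever `S, U` generate. -/
lemma R_sub_mem_sup {S U : G} (hgen : Subgroup.closure {S, U} = ⊤) (g : G)
    (w : (G ⧸ Γ) → ℂ) :
    R Γ g w - w ∈ LinearMap.range (R Γ S - 1) ⊔ LinearMap.range (R Γ U - 1) := by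
  have hg : g ∈ Subgroup.closure {S, U} := by rw [hgen]; trivial
  induction hg using Subgroup.closure_induction generalizing w with
  | mem x hx =>
    rcases hx with rfl | rfl
    · exact Submodule.mem_sup_left ⟨w, rfl⟩
    · exact Submodule.mem_sup_right ⟨w, rfl⟩
  | one => simp [R_one]
  | mul x y _ _ hx hy =>
    have : R Γ (x * y) w - w = (R Γ y (R Γ x w) - R Γ x w) + (R Γ x w - w) := by
      rw [R_mul, Module.End.mul_apply]; abel
    rw [this]
    exact Submodule.add_mem _ (hy _) (hx _)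
  | inv x _ hx =>
    have h1 : R Γ x (R Γ x⁻¹ w) = w := by
      rw [← Module.End.mul_apply, ← R_mul, inv_mul_cancel, R_one, Module.End.one_apply]
    have : R Γ x⁻¹ w - w = -(R Γ x (R Γ x⁻¹ w) - R Γ x⁻¹ w) := by
      rw [h1]; abel
    rw [this]
    exact Submodule.neg_mem _ (hx _)

lemma single_sub_single_mem_sup [DecidableEq (G ⧸ Γ)] {S U : G}
    (hgen : Subgroup.closure {S, U} = ⊤) (q q₀ : G ⧸ Γ) :
    (Pi.single q (1 : ℂ) - Pi.single q₀ (1 : ℂ) : (G ⧸ Γ) → ℂ) ∈
      LinearMap.range (R Γ S - 1) ⊔ LinearMap.range (R Γ U - 1) := by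
  obtain ⟨g, hg⟩ := MulAction.exists_smul_eq G q q₀
  have : (Pi.single q (1 : ℂ) : (G ⧸ Γ) → ℂ) = R Γ g (Pi.single q₀ (1 : ℂ)) := by
    ext q'
    simp only [R_apply, Pi.single_apply]
    have : q' = q ↔ g • q' = q₀ := by
      rw [← hg]
      exact ⟨fun h => by rw [h], fun h => MulAction.injective g h⟩
    simp only [this]
  rw [this]
  exact R_sub_mem_sup Γ hgen g _

/-- Sum-zero vectors lie in `range (R_S - 1) ⊔ range (R_U - 1)`. -/
lemma ker_sumFun_le_sup {S U : G} (hgen : Subgroup.closure {S, U} = ⊤) :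
    LinearMap.ker (sumFun Γ) ≤
      LinearMap.range (R Γ S - 1) ⊔ LinearMap.range (R Γ U - 1) := by
  classical
  intro v hv
  rw [LinearMap.mem_ker, sumFun_apply] at hv
  let q₀ : G ⧸ Γ := QuotientGroup.mk 1
  have hv' : v = ∑ q, v q • (Pi.single q (1 : ℂ) - Pi.single q₀ (1 : ℂ) : (G ⧸ Γ) → ℂ) := by
    simp only [smul_sub, Finset.sum_sub_distrib, ← Finset.sum_smul, hv, zero_smul, sub_zero]
    ext q'
    simp [Finset.sum_apply, Pi.single_apply]
  rw [hv']
  exact Submodule.sum_mem _ fun q _ =>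
    Submodule.smul_mem _ _ (single_sub_single_mem_sup Γ hgen q q₀)

/-- a subspace loses at most one dimension when intersected with a hyperplane -/
lemma finrank_le_finrank_inf_ker_add_one {V : Type*} [AddCommGroup V] [Module ℂ V]
    [FiniteDimensional ℂ V] (K : Submodule ℂ V) (f : V →ₗ[ℂ] ℂ) :
    finrank ℂ K ≤ finrank ℂ (K ⊓ LinearMap.ker f : Submodule ℂ V) + 1 := by
  have h1 := Submodule.finrank_sup_add_finrank_inf_eq K (LinearMap.ker f)
  have h2 := LinearMap.finrank_range_add_finrank_ker f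
  have h3 : finrank ℂ (LinearMap.range f) ≤ 1 := by
    have := Submodule.finrank_le (LinearMap.range f)
    simpa using this
  have h4 := Submodule.finrank_le (K ⊔ LinearMap.ker f)
  omega

end SumZero

end Fermat.Agent.S21.H75
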