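import Mathlib
import Fermat.Agent.S21.H75_Count

set_option autoImplicit false
set_option linter.unusedSectionVars false

/-!
# The abstract cohomological upper bound
-/

namespace Fermat.Agent.S21.H75

open Module

variable {G : Type*} [Group G] (Γ : Subgroup G)

/-- homs `Γ → ℂ` vanishing on all `G`-conjugates of powers of `T` lying in `Γ` -/
def parHoms (T : G) : Submodule ℂ (Additive Γ →+ ℂ) where
  carrier := {φ | ∀ (g : G) (n : ℕ) (h : g⁻¹ * (T ^ n * g) ∈ Γ), φ (Additive.ofMul ⟨_, h⟩) = 0}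
  zero_mem' := fun _ _ _ => rfl
  add_mem' := by
    intro φ ψ hφ hψ g n h
    show φ _ + ψ _ = 0
    rw [hφ g n h, hψ g n h, add_zero]
  smul_mem' := by
    intro c φ hφ g n h
    show c • φ _ = 0
    rw [hφ g n h, smul_zero]

lemma coc_add (φ ψ : Additive Γ →+ ℂ) (g : G) : coc Γ (φ + ψ) g = coc Γ φ g + coc Γ ψ g := rfl

lemma coc_smul (a : ℂ) (φ : Additive Γ →+ ℂ) (g : G) : coc Γ (a • φ) g = a • coc Γ φ g := rfl

lemma cob_add (v w : (G ⧸ Γ) → ℂ) (g : G) : cob Γ (v + w) g = cob Γ v g + cob Γ w g := by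
  simp only [cob, map_add]; abel

lemma cob_smul (a : ℂ) (v : (G ⧸ Γ) → ℂ) (g : G) : cob Γ (a • v) g = a • cob Γ v g := by
  simp only [cob, map_smul, smul_sub]

/-- the total cocycle `coc φ + cob v` evaluated at `g`, as a linear map in `(φ, v)` -/
noncomputable def evalCoc (g : G) :
    ((Additive Γ →+ ℂ) × ((G ⧸ Γ) → ℂ)) →ₗ[ℂ] ((G ⧸ Γ) → ℂ) where
  toFun p := coc Γ p.1 g + cob Γ p.2 g
  map_add' p p' := by
    simp only [Prod.fst_add, Prod.snd_add, coc_add, cob_add]; abel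
  map_smul' a p := by
    simp only [Prod.smul_fst, Prod.smul_snd, coc_smul, cob_smul, smul_add, RingHom.id_apply]

lemma evalCoc_apply (g : G) (p : (Additive Γ →+ ℂ) × ((G ⧸ Γ) → ℂ)) :
    evalCoc Γ g p = coc Γ p.1 g + cob Γ p.2 g := rfl

lemma isCoc_evalCoc (p : (Additive Γ →+ ℂ) × ((G ⧸ Γ) → ℂ)) :
    IsCoc Γ (fun g => evalCoc Γ g p) :=
  (isCoc_coc Γ p.1).add Γ (isCoc_cob Γ p.2)

/-- the section value at the base coset lies in `Γ` -/
lemma out_base_mem : (Quotient.out (QuotientGroup.mk 1 : G ⧸ Γ) : G) ∈ Γ := by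
  have h := QuotientGroup.out_eq' (QuotientGroup.mk 1 : G ⧸ Γ)
  rw [QuotientGroup.eq] at h
  simpa using Γ.inv_mem h

/-- Shapiro: evaluating the total cocycle at `γ ∈ Γ` and the base coset recovers `φ γ`. -/
lemma evalCoc_base (p : (Additive Γ →+ ℂ) × ((G ⧸ Γ) → ℂ)) (γ : Γ) :
    evalCoc Γ (γ : G) p (QuotientGroup.mk 1) = p.1 (Additive.ofMul γ) := by
  have hfix : (γ : G) • (QuotientGroup.mk 1 : G ⧸ Γ) = QuotientGroup.mk 1 := by
    rw [← QuotientGroup.mk_mul_of_mem (1 : G) γ.2]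
    simp [MulAction.Quotient.smul_mk]
  have hk : kappa Γ (γ : G) (QuotientGroup.mk 1)
      = ⟨_, out_base_mem Γ⟩⁻¹ * γ * ⟨_, out_base_mem Γ⟩ := by
    apply Subtype.ext
    simp only [kappa_coe, hfix, Subgroup.coe_mul, Subgroup.coe_inv, mul_assoc]
  rw [evalCoc_apply, Pi.add_apply, coc_apply, hk]
  simp only [cob, Pi.sub_apply, R_apply, hfix, sub_self, add_zero, ofMul_mul, ofMul_inv,
    map_add, map_neg]
  abel

/-- If the total cocycle vanishes at generators, then `φ = 0` and `v` is `G`-invariant. -/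
lemma evalCoc_eq_zero_of_gen {s : Set G} (hs : Subgroup.closure s = ⊤)
    (p : (Additive Γ →+ ℂ) × ((G ⧸ Γ) → ℂ)) (h0 : ∀ g ∈ s, evalCoc Γ g p = 0) :
    p.1 = 0 ∧ ∀ q q' : G ⧸ Γ, p.2 q = p.2 q' := by
  have hall : ∀ g, evalCoc Γ g p = 0 :=
    fun g => (isCoc_evalCoc Γ p).eq_zero_of_closure hs h0 g
  have h1 : p.1 = 0 := by
    ext γ
    have := evalCoc_base Γ p (Additive.toMul γ)
    rw [hall] at this
    exact this.symm
  refine ⟨h1, fun q q' => ?_⟩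
  obtain ⟨g, rfl⟩ := MulAction.exists_smul_eq G q' q
  have := congrFun (hall g) q'
  rw [evalCoc_apply, h1] at this
  simp only [cob, Pi.add_apply, Pi.sub_apply, R_apply, Pi.zero_apply] at this
  have h2 : coc Γ 0 g q' = 0 := rfl
  rw [h2, zero_add] at this
  exact sub_eq_zero.mp this

section MainCount

/-- the hypotheses of the abstract count -/
structure Hyp (S T z : G) (M : ℕ) : Prop where
  gen : Subgroup.closure {S, T} = ⊤
  zc : ∀ g : G, z * g = g * z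
  zΓ : z ∈ Γ
  z2 : z * z = 1
  hS : S ^ 2 = z
  hU : (S * T) ^ 3 = z
  hM : 0 < M
  hTM : ∀ q : G ⧸ Γ, (T ^ M) • q = q

variable {Γ} {S T z : G} {M : ℕ}

lemma Hyp.smul_z (H : Hyp Γ S T z M) (q : G ⧸ Γ) : z • q = q := by
  induction q using QuotientGroup.induction_on with
  | H g =>
    rw [MulAction.Quotient.smul_mk, smul_eq_mul, H.zc g]
    exact QuotientGroup.mk_mul_of_mem g H.zΓ

lemma Hyp.R_z (H : Hyp Γ S T z M) : R Γ z = 1 := by
  ext v q
  simp [H.smul_z]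

lemma Hyp.R_S_sq (H : Hyp Γ S T z M) : R Γ S ^ 2 = 1 := by
  rw [← R_pow, H.hS, H.R_z]

lemma Hyp.R_U_cube (H : Hyp Γ S T z M) : R Γ (S * T) ^ 3 = 1 := by
  rw [← R_pow, H.hU, H.R_z]

lemma Hyp.R_T_pow (H : Hyp Γ S T z M) : R Γ T ^ M = 1 := by
  rw [← R_pow]
  ext v q
  simp [H.hTM]

lemma Hyp.gen' (H : Hyp Γ S T z M) : Subgroup.closure {S, S * T} = ⊤ := by
  rw [eq_top_iff, ← H.gen, Subgroup.closure_le]
  intro x hx
  have hS : S ∈ Subgroup.closure {S, S * T} := Subgroup.subset_closure (by simp)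
  have hU : S * T ∈ Subgroup.closure {S, S * T} := Subgroup.subset_closure (by simp)
  rcases hx with hx | hx
  · rw [hx]; exact hS
  · rw [Set.mem_singleton_iff] at hx
    rw [hx]
    have h3 : S⁻¹ * (S * T) ∈ Subgroup.closure {S, S * T} := mul_mem (inv_mem hS) hU
    rwa [inv_mul_cancel_left] at h3

/-- the total cocycle of a parabolic hom vanishes at the central element `z` -/
lemma Hyp.evalCoc_z (H : Hyp Γ S T z M) (p : (Additive Γ →+ ℂ) × ((G ⧸ Γ) → ℂ)) :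
    evalCoc Γ z p = 0 := by
  ext q
  have hk : kappa Γ z q = ⟨z, H.zΓ⟩ := by
    apply Subtype.ext
    rw [kappa_coe, H.smul_z, H.zc, inv_mul_cancel_left]
  have hz : p.1 (Additive.ofMul (⟨z, H.zΓ⟩ : Γ)) = 0 := by
    have h1 : (⟨z, H.zΓ⟩ : Γ) * ⟨z, H.zΓ⟩ = 1 := Subtype.ext H.z2
    have h2 := congrArg (fun γ : Γ => p.1 (Additive.ofMul γ)) h1
    simp only [ofMul_mul, map_add, ofMul_one, map_zero] at h2
    have h3 : (2 : ℂ) * p.1 (Additive.ofMul (⟨z, H.zΓ⟩ : Γ)) = 0 := by rw [two_mul]; exact h2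
    exact (mul_eq_zero.mp h3).resolve_left two_ne_zero
  simp [evalCoc_apply, coc_apply, hk, hz, cob, H.smul_z]

/-- the total cocycle of a parabolic hom vanishes at `T ^ M` -/
lemma Hyp.evalCoc_T_pow (H : Hyp Γ S T z M) (p : (Additive Γ →+ ℂ) × ((G ⧸ Γ) → ℂ))
    (hp : p.1 ∈ parHoms Γ T) : evalCoc Γ (T ^ M) p = 0 := by
  ext q
  have hmem : (Quotient.out q)⁻¹ * (T ^ M * Quotient.out q) ∈ Γ := by
    have := (kappa Γ (T ^ M) q).2
    rwa [kappa_coe, H.hTM] at this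
  have hk : kappa Γ (T ^ M) q = ⟨_, hmem⟩ := by
    apply Subtype.ext
    rw [kappa_coe, H.hTM]
  simp [evalCoc_apply, coc_apply, hk, hp (Quotient.out q) M hmem, cob, H.hTM]

lemma Hyp.normOp_S (H : Hyp Γ S T z M) (p : (Additive Γ →+ ℂ) × ((G ⧸ Γ) → ℂ)) :
    normOp (R Γ S) 2 (evalCoc Γ S p) = 0 := by
  rw [← (isCoc_evalCoc Γ p).map_pow S 2, H.hS, H.evalCoc_z]

lemma Hyp.normOp_U (H : Hyp Γ S T z M) (p : (Additive Γ →+ ℂ) × ((G ⧸ Γ) → ℂ)) :
    normOp (R Γ (S * T)) 3 (evalCoc Γ (S * T) p) = 0 := by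
  rw [← (isCoc_evalCoc Γ p).map_pow (S * T) 3, H.hU, H.evalCoc_z]

lemma Hyp.normOp_T (H : Hyp Γ S T z M) (p : (Additive Γ →+ ℂ) × ((G ⧸ Γ) → ℂ))
    (hp : p.1 ∈ parHoms Γ T) :
    normOp (R Γ T) M (evalCoc Γ (S * T) p - evalCoc Γ S p) = 0 := by
  have h1 : evalCoc Γ (S * T) p = R Γ T (evalCoc Γ S p) + evalCoc Γ T p :=
    isCoc_evalCoc Γ p S T
  have h2 : normOp (R Γ T) M (evalCoc Γ T p) = 0 := by
    rw [← (isCoc_evalCoc Γ p).map_pow T M, H.evalCoc_T_pow p hp]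
  rw [h1, map_sub, map_add, normOp_comp_self H.R_T_pow, h2]
  abel

/-- `Hom(Γ, ℂ)` is finite-dimensional (finite index, `G` generated by `S, T`). -/
lemma Hyp.finite_hom [Finite (G ⧸ Γ)] (H : Hyp Γ S T z M) :
    FiniteDimensional ℂ (Additive Γ →+ ℂ) := by
  let Ψ : (Additive Γ →+ ℂ) →ₗ[ℂ] ((G ⧸ Γ) → ℂ) × ((G ⧸ Γ) → ℂ) :=
    ((evalCoc Γ S).prod (evalCoc Γ T)) ∘ₗ (LinearMap.inl ℂ _ _)
  have hΨ : Function.Injective Ψ := by
    rw [injective_iff_map_eq_zero]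
    intro φ hφ
    have h1 : evalCoc Γ S (φ, 0) = 0 := congrArg Prod.fst hφ
    have h2 : evalCoc Γ T (φ, 0) = 0 := congrArg Prod.snd hφ
    have := evalCoc_eq_zero_of_gen Γ H.gen (φ, 0) (by
      rintro g (rfl | hg)
      · exact h1
      · rw [Set.mem_singleton_iff] at hg; rw [hg]; exact h2)
    exact this.1
  exact FiniteDimensional.of_injective Ψ hΨ

section Count

variable [Fintype (G ⧸ Γ)]

/-- the abstract dimension count -/
theorem Hyp.finrank_bound (H : Hyp Γ S T z M) :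
    finrank ℂ (parHoms Γ T) + finrank ℂ (LinearMap.ker (R Γ S - 1))
      + finrank ℂ (LinearMap.ker (R Γ (S * T) - 1)) + finrank ℂ (LinearMap.ker (R Γ T - 1))
      ≤ Fintype.card (G ⧸ Γ) + 2 := by
  classical
  have := H.finite_hom
  set A : Submodule ℂ ((G ⧸ Γ) → ℂ) := LinearMap.ker (normOp (R Γ S) 2) with hA
  set B : Submodule ℂ ((G ⧸ Γ) → ℂ) := LinearMap.ker (normOp (R Γ (S * T)) 3) with hB
  -- the inclusion of parabolic data
  let incl : (parHoms Γ T) × ((G ⧸ Γ) → ℂ) →ₗ[ℂ] (Additive Γ →+ ℂ) × ((G ⧸ Γ) → ℂ) :=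
    LinearMap.prodMap (parHoms Γ T).subtype LinearMap.id
  let Θ : (parHoms Γ T) × ((G ⧸ Γ) → ℂ) →ₗ[ℂ] A × B :=
    LinearMap.prod
      (LinearMap.codRestrict A ((evalCoc Γ S) ∘ₗ incl) (fun p => H.normOp_S _))
      (LinearMap.codRestrict B ((evalCoc Γ (S * T)) ∘ₗ incl) (fun p => H.normOp_U _))
  let L : A × B →ₗ[ℂ] ((G ⧸ Γ) → ℂ) :=
    (normOp (R Γ T) M) ∘ₗ (B.subtype ∘ₗ LinearMap.snd ℂ A B - A.subtype ∘ₗ LinearMap.fst ℂ A B)
  -- (3) range Θ ≤ ker L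
  have h3 : LinearMap.range Θ ≤ LinearMap.ker L := by
    rintro _ ⟨p, rfl⟩
    rw [LinearMap.mem_ker]
    exact H.normOp_T (incl p) p.1.2
  -- (4) ker Θ is at most one-dimensional
  have h4 : finrank ℂ (LinearMap.ker Θ) ≤ 1 := by
    have hle : LinearMap.ker Θ ≤ Submodule.span ℂ {((0 : parHoms Γ T), (fun _ => (1 : ℂ) : (G ⧸ Γ) → ℂ))} := by
      intro p hp
      rw [LinearMap.mem_ker] at hp
      have h1 : evalCoc Γ S (incl p) = 0 := congrArg (fun x : A × B => (x.1 : (G ⧸ Γ) → ℂ)) hp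
      have h2 : evalCoc Γ (S * T) (incl p) = 0 := congrArg (fun x : A × B => (x.2 : (G ⧸ Γ) → ℂ)) hp
      have := evalCoc_eq_zero_of_gen Γ H.gen' (incl p) (by
        rintro g (rfl | hg)
        · exact h1
        · rw [Set.mem_singleton_iff] at hg; rw [hg]; exact h2)
      rw [Submodule.mem_span_singleton]
      refine ⟨p.2 (QuotientGroup.mk 1), ?_⟩
      apply Prod.ext
      · apply Subtype.ext
        have h1' : (p.1 : Additive Γ →+ ℂ) = 0 := this.1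
        simp [h1']
      · funext q
        have h2' : p.2 (QuotientGroup.mk 1) = p.2 q := this.2 (QuotientGroup.mk 1) q
        simp [h2']
    calc finrank ℂ (LinearMap.ker Θ)
        ≤ finrank ℂ (Submodule.span ℂ {((0 : parHoms Γ T), (fun _ => (1 : ℂ) : (G ⧸ Γ) → ℂ))}) :=
          Submodule.finrank_mono hle
      _ ≤ 1 := by
          have := finrank_span_le_card (R := ℂ) ({((0 : parHoms Γ T), (fun _ => (1 : ℂ) : (G ⧸ Γ) → ℂ))} :
            Set ((parHoms Γ T) × ((G ⧸ Γ) → ℂ)))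
          simpa using this
  -- (5) range L ⊇ T-fixed sum-zero vectors
  have h5 : (LinearMap.ker (R Γ T - 1) ⊓ LinearMap.ker (sumFun Γ) : Submodule ℂ ((G ⧸ Γ) → ℂ))
      ≤ LinearMap.range L := by
    intro w hw
    obtain ⟨hw1, hw2⟩ := Submodule.mem_inf.mp hw
    rw [LinearMap.mem_ker, LinearMap.sub_apply, Module.End.one_apply, sub_eq_zero] at hw1
    have hM0 : (M : ℂ) ≠ 0 := by exact_mod_cast H.hM.ne'
    have hw' : ((M : ℂ)⁻¹ • w) ∈ LinearMap.ker (sumFun Γ) :=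
      Submodule.smul_mem _ _ hw2
    have hsup := ker_sumFun_le_sup Γ H.gen' hw'
    obtain ⟨a, ha, b, hb, hab⟩ := Submodule.mem_sup.mp hsup
    have haA : a ∈ A := range_sub_one_le_ker_normOp H.R_S_sq ha
    have hbB : b ∈ B := range_sub_one_le_ker_normOp H.R_U_cube hb
    refine ⟨(⟨-a, A.neg_mem haA⟩, ⟨b, hbB⟩), ?_⟩
    show normOp (R Γ T) M (b - -a) = w
    rw [sub_neg_eq_add, add_comm, hab, map_smul, normOp_of_fixed M hw1, smul_smul,
      inv_mul_cancel₀ hM0, one_smul]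
  -- counting
  have c1 : finrank ℂ A + finrank ℂ (LinearMap.ker (R Γ S - 1)) = finrank ℂ ((G ⧸ Γ) → ℂ) :=
    finrank_ker_normOp_add (R := R Γ S) (M := 2) (by norm_num) H.R_S_sq
  have c2 : finrank ℂ B + finrank ℂ (LinearMap.ker (R Γ (S * T) - 1))
      = finrank ℂ ((G ⧸ Γ) → ℂ) :=
    finrank_ker_normOp_add (R := R Γ (S * T)) (M := 3) (by norm_num) H.R_U_cube
  have c3 : finrank ℂ ((G ⧸ Γ) → ℂ) = Fintype.card (G ⧸ Γ) := Module.finrank_fintype_fun_eq_card ℂ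
  have c4 := LinearMap.finrank_range_add_finrank_ker Θ
  have c5 := LinearMap.finrank_range_add_finrank_ker L
  have c6 : finrank ℂ ((parHoms Γ T) × ((G ⧸ Γ) → ℂ)) = finrank ℂ (parHoms Γ T) + finrank ℂ ((G ⧸ Γ) → ℂ) :=
    Module.finrank_prod
  have c7 : finrank ℂ (A × B) = finrank ℂ A + finrank ℂ B := Module.finrank_prod
  have c8 : finrank ℂ (LinearMap.range Θ) ≤ finrank ℂ (LinearMap.ker L) :=
    Submodule.finrank_mono h3
  have c9 : finrank ℂ (LinearMap.ker (R Γ T - 1)) ≤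
      finrank ℂ (LinearMap.ker (R Γ T - 1) ⊓ LinearMap.ker (sumFun Γ) : Submodule ℂ ((G ⧸ Γ) → ℂ)) + 1 :=
    finrank_le_finrank_inf_ker_add_one (LinearMap.ker (R Γ T - 1)) (sumFun Γ)
  have c10 : finrank ℂ (LinearMap.ker (R Γ T - 1) ⊓ LinearMap.ker (sumFun Γ) : Submodule ℂ ((G ⧸ Γ) → ℂ))
      ≤ finrank ℂ (LinearMap.range L) := Submodule.finrank_mono h5
  omega

end Count

end MainCount

end Fermat.Agent.S21.H75
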