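import Mathlib
import Fermat.Agent.S21.H75_Main

set_option autoImplicit false
set_option linter.unusedSectionVars false

/-!
# Dimensions of fixed spaces: orbit counts and fixed-point counts
-/

namespace Fermat.Agent.S21.H75

open Module

variable {G : Type*} [Group G] (Γ : Subgroup G)

section Orbits

variable [Fintype (G ⧸ Γ)]

/-- invariance under `g` propagates to the cyclic group generated by `g` -/
lemma apply_smul_of_mem_zpowers {g : G} {v : (G ⧸ Γ) → ℂ} (hv : ∀ q, v (g • q) = v q)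
    {h : G} (hh : h ∈ Subgroup.zpowers g) (q : G ⧸ Γ) : v (h • q) = v q := by
  obtain ⟨n, rfl⟩ := Subgroup.mem_zpowers_iff.mp hh
  clear hh
  have hinv : ∀ q, v (g⁻¹ • q) = v q := fun q => by
    have := hv (g⁻¹ • q)
    rw [smul_inv_smul] at this
    exact this.symm
  induction n using Int.induction_on generalizing q with
  | zero => simp
  | succ n ih =>
    rw [zpow_add_one, mul_smul, ih, hv]
  | pred n ih =>
    rw [zpow_sub_one, mul_smul, ih, hinv]

/-- `dim ker (R_g - 1)` is the number of orbits of `⟨g⟩` on `G ⧸ Γ`. -/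
theorem finrank_ker_R_sub_one (g : G) :
    finrank ℂ (LinearMap.ker (R Γ g - 1)) =
      Nat.card (MulAction.orbitRel.Quotient (Subgroup.zpowers g) (G ⧸ Γ)) := by
  classical
  let π : (G ⧸ Γ) → MulAction.orbitRel.Quotient (Subgroup.zpowers g) (G ⧸ Γ) :=
    Quotient.mk''
  have hπ : Function.Surjective π := Quotient.mk''_surjective
  let F : (MulAction.orbitRel.Quotient (Subgroup.zpowers g) (G ⧸ Γ) → ℂ) →ₗ[ℂ]
      ((G ⧸ Γ) → ℂ) := LinearMap.funLeft ℂ ℂ π
  have hF : Function.Injective F := LinearMap.funLeft_injective_of_surjective ℂ ℂ π hπ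
  have hrange : LinearMap.range F = LinearMap.ker (R Γ g - 1) := by
    apply le_antisymm
    · rintro _ ⟨f, rfl⟩
      rw [LinearMap.mem_ker, LinearMap.sub_apply, Module.End.one_apply, sub_eq_zero]
      funext q
      show f (π (g • q)) = f (π q)
      congr 1
      apply Quotient.sound'
      exact ⟨⟨g, Subgroup.mem_zpowers g⟩, rfl⟩
    · intro v hv
      rw [LinearMap.mem_ker, LinearMap.sub_apply, Module.End.one_apply, sub_eq_zero] at hv
      have hv' : ∀ q, v (g • q) = v q := fun q => congrFun hv q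
      refine ⟨Quotient.lift v ?_, ?_⟩
      · rintro a b ⟨⟨h, hh⟩, rfl⟩
        exact apply_smul_of_mem_zpowers Γ hv' hh b
      · funext q
        rfl
  have : Finite (MulAction.orbitRel.Quotient (Subgroup.zpowers g) (G ⧸ Γ)) :=
    Finite.of_surjective π hπ
  let _ := Fintype.ofFinite (MulAction.orbitRel.Quotient (Subgroup.zpowers g) (G ⧸ Γ))
  rw [← hrange, LinearMap.finrank_range_of_inj hF, Module.finrank_fintype_fun_eq_card,
    Nat.card_eq_fintype_card]

/-- `R_g` is the linear map of a permutation matrix -/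
lemma R_eq_toLin' [DecidableEq (G ⧸ Γ)] (g : G) :
    R Γ g = Matrix.toLin' ((MulAction.toPerm g : Equiv.Perm (G ⧸ Γ)).permMatrix ℂ) := by
  apply LinearMap.ext
  intro v
  funext q
  rw [Matrix.toLin'_apply, Matrix.permMatrix_mulVec]
  rfl

/-- the trace of `R_g` is the number of fixed points of `g` -/
lemma trace_R (g : G) :
    LinearMap.trace ℂ ((G ⧸ Γ) → ℂ) (R Γ g) = (Nat.card {q : G ⧸ Γ // g • q = q} : ℂ) := by
  classical
  rw [R_eq_toLin', Matrix.trace_toLin'_eq, Matrix.trace_permutation]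
  congr 1

lemma isProj_normOp {V : Type*} [AddCommGroup V] [Module ℂ V] {R : V →ₗ[ℂ] V} {M : ℕ}
    (hM : 0 < M) (hR : R ^ M = 1) :
    LinearMap.IsProj (LinearMap.ker (R - 1)) (((M : ℂ)⁻¹) • normOp R M) := by
  have hM0 : (M : ℂ) ≠ 0 := by exact_mod_cast hM.ne'
  constructor
  · intro x
    rw [LinearMap.mem_ker, LinearMap.sub_apply, Module.End.one_apply, LinearMap.smul_apply,
      map_smul, self_comp_normOp hR, sub_self]
  · intro x hx
    rw [LinearMap.mem_ker, LinearMap.sub_apply, Module.End.one_apply, sub_eq_zero] at hx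
    rw [LinearMap.smul_apply, normOp_of_fixed M hx, smul_smul, inv_mul_cancel₀ hM0, one_smul]

/-- `M * dim ker (R_g - 1) = ∑_{k<M} #Fix(g^k)` when `g^M` acts trivially. -/
theorem mul_finrank_ker_R_sub_one (g : G) {M : ℕ} (hM : 0 < M) (hg : R Γ g ^ M = 1) :
    M * finrank ℂ (LinearMap.ker (R Γ g - 1)) =
      ∑ k ∈ Finset.range M, Nat.card {q : G ⧸ Γ // (g ^ k) • q = q} := by
  have hM0 : (M : ℂ) ≠ 0 := by exact_mod_cast hM.ne'
  have h1 := (isProj_normOp hM hg).trace
  rw [map_smul, normOp, map_sum] at h1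
  have h2 : ∀ k ∈ Finset.range M, LinearMap.trace ℂ ((G ⧸ Γ) → ℂ) (R Γ g ^ k)
      = (Nat.card {q : G ⧸ Γ // (g ^ k) • q = q} : ℂ) := fun k _ => by
    rw [← R_pow, trace_R]
  rw [Finset.sum_congr rfl h2, smul_eq_mul, inv_mul_eq_iff_eq_mul₀ hM0] at h1
  have h3 : ((M * finrank ℂ (LinearMap.ker (R Γ g - 1)) : ℕ) : ℂ)
      = ((∑ k ∈ Finset.range M, Nat.card {q : G ⧸ Γ // (g ^ k) • q = q} : ℕ) : ℂ) := by
    push_cast
    exact h1.symm
  exact_mod_cast h3

end Orbits

end Fermat.Agent.S21.H75
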