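import Mathlib
import Fermat.Prelude.Def_ModularCurve_PeriodHomPair
import Fermat.Agent.S21.H75_Orbits

set_option autoImplicit false
set_option linter.unusedSectionVars false

/-!
# Part E1a of S21: the cohomological upper bound for `Γ₀(N)`
-/

open ModularCurve ModularCurve.Period CongruenceSubgroup
open scoped MatrixGroups

namespace Fermat.Agent.S21.H75

open Module

lemma S_sq : ModularGroup.S ^ 2 = (-1 : SL(2, ℤ)) := by decide

lemma ST_cube : (ModularGroup.S * ModularGroup.T) ^ 3 = (-1 : SL(2, ℤ)) := by decide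

lemma neg_one_central (g : SL(2, ℤ)) : (-1 : SL(2, ℤ)) * g = g * (-1) := by
  simp

lemma neg_one_mem_Gamma0 (N : ℕ) : (-1 : SL(2, ℤ)) ∈ Gamma0 N := by
  rw [Gamma0_mem]
  simp

lemma neg_one_sq : (-1 : SL(2, ℤ)) * (-1) = 1 := by decide

/-- the hypotheses of the abstract count hold for `Γ₀(N)` -/
lemma hyp_Gamma0 (N : ℕ) [NeZero N] :
    ∃ M : ℕ, Hyp (Gamma0 N) ModularGroup.S ModularGroup.T (-1 : SL(2, ℤ)) M := by
  classical
  let _ := Fintype.ofFinite (SL(2, ℤ) ⧸ Gamma0 N)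
  let τ : Equiv.Perm (SL(2, ℤ) ⧸ Gamma0 N) := MulAction.toPermHom _ _ ModularGroup.T
  refine ⟨orderOf τ, ?_⟩
  refine
    { gen := SpecialLinearGroup.SL2Z_generators
      zc := neg_one_central
      zΓ := neg_one_mem_Gamma0 N
      z2 := neg_one_sq
      hS := S_sq
      hU := ST_cube
      hM := orderOf_pos τ
      hTM := ?_ }
  intro q
  have h1 : MulAction.toPermHom _ (SL(2, ℤ) ⧸ Gamma0 N) (ModularGroup.T ^ orderOf τ) = 1 := by
    rw [map_pow]
    exact pow_orderOf_eq_one τ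
  have h2 := congrArg (fun σ : Equiv.Perm (SL(2, ℤ) ⧸ Gamma0 N) => σ q) h1
  simpa using h2

/-- conjugates of powers of `T` have trace `2` -/
lemma trace_conj_T_pow (g : SL(2, ℤ)) (n : ℕ) :
    ((g⁻¹ * (ModularGroup.T ^ n * g) : SL(2, ℤ)) : Matrix (Fin 2) (Fin 2) ℤ).trace = 2 := by
  have h1 : ((g⁻¹ * (ModularGroup.T ^ n * g) : SL(2, ℤ)) : Matrix (Fin 2) (Fin 2) ℤ)
      = (g⁻¹ : SL(2, ℤ)).1 * ((ModularGroup.T ^ n * g : SL(2, ℤ)) : Matrix (Fin 2) (Fin 2) ℤ) :=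
    Matrix.SpecialLinearGroup.coe_mul _ _
  rw [h1, Matrix.trace_mul_comm, ← Matrix.SpecialLinearGroup.coe_mul, mul_assoc,
    mul_inv_cancel, mul_one]
  have h2 := ModularGroup.coe_T_zpow (n : ℤ)
  rw [zpow_natCast] at h2
  rw [show ((ModularGroup.T ^ n : SL(2, ℤ)) : Matrix (Fin 2) (Fin 2) ℤ)
      = (ModularGroup.T ^ n).1 from rfl, h2, Matrix.trace_fin_two_of]
  norm_num

lemma parabolicHoms_le_parHoms (N : ℕ) :
    parabolicHoms ℂ (Gamma0 N) ℂ ≤ parHoms (Gamma0 N) ModularGroup.T := by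
  intro φ hφ g n h
  rw [mem_parabolicHoms_iff] at hφ
  refine hφ ⟨_, h⟩ ?_
  show ((g⁻¹ * (ModularGroup.T ^ n * g) : SL(2, ℤ)) : Matrix (Fin 2) (Fin 2) ℤ).trace ^ 2 = 4
  rw [trace_conj_T_pow]
  norm_num

/-- **Part E1a** -/
theorem partE1a (N : ℕ) [NeZero N] :
    Module.Finite ℂ (parabolicHoms ℂ (Gamma0 N) ℂ) ∧
      6 * Module.finrank ℂ (parabolicHoms ℂ (Gamma0 N) ℂ)
        + 3 * Nat.card {q : SL(2, ℤ) ⧸ Gamma0 N // ModularGroup.S • q = q}
        + 4 * Nat.card {q : SL(2, ℤ) ⧸ Gamma0 N // (ModularGroup.S * ModularGroup.T) • q = q}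
        + 6 * Nat.card (MulAction.orbitRel.Quotient (Subgroup.zpowers ModularGroup.T)
            (SL(2, ℤ) ⧸ Gamma0 N))
        ≤ (Gamma0 N).index + 12 := by
  classical
  let _ := Fintype.ofFinite (SL(2, ℤ) ⧸ Gamma0 N)
  obtain ⟨M, H⟩ := hyp_Gamma0 N
  have hfin := H.finite_hom
  refine ⟨inferInstance, ?_⟩
  have hb := H.finrank_bound
  have hmono : finrank ℂ (parabolicHoms ℂ (Gamma0 N) ℂ)
      ≤ finrank ℂ (parHoms (Gamma0 N) ModularGroup.T) :=
    Submodule.finrank_mono (parabolicHoms_le_parHoms N)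
  have hT := finrank_ker_R_sub_one (Gamma0 N) ModularGroup.T
  have hS := mul_finrank_ker_R_sub_one (Gamma0 N) ModularGroup.S (M := 2) (by norm_num) H.R_S_sq
  have hU := mul_finrank_ker_R_sub_one (Gamma0 N) (ModularGroup.S * ModularGroup.T) (M := 3)
    (by norm_num) H.R_U_cube
  have hidx : (Gamma0 N).index = Fintype.card (SL(2, ℤ) ⧸ Gamma0 N) := by
    rw [Subgroup.index_eq_card, Nat.card_eq_fintype_card]
  have hall : ∀ g : SL(2, ℤ), (∀ q : SL(2, ℤ) ⧸ Gamma0 N, g • q = q) →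
      Nat.card {q : SL(2, ℤ) ⧸ Gamma0 N // g • q = q}
        = Fintype.card (SL(2, ℤ) ⧸ Gamma0 N) := by
    intro g hg
    rw [← Nat.card_eq_fintype_card]
    exact Nat.card_congr (Equiv.subtypeUnivEquiv hg)
  have h0S : Nat.card {q : SL(2, ℤ) ⧸ Gamma0 N // (ModularGroup.S ^ 0) • q = q}
      = Fintype.card (SL(2, ℤ) ⧸ Gamma0 N) := hall _ (by simp)
  have h0U : Nat.card {q : SL(2, ℤ) ⧸ Gamma0 N //
      ((ModularGroup.S * ModularGroup.T) ^ 0) • q = q}
      = Fintype.card (SL(2, ℤ) ⧸ Gamma0 N) := hall _ (by simp)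
  have h1S : Nat.card {q : SL(2, ℤ) ⧸ Gamma0 N // (ModularGroup.S ^ 1) • q = q}
      = Nat.card {q : SL(2, ℤ) ⧸ Gamma0 N // ModularGroup.S • q = q} := by
    rw [pow_one]
  have h1U : Nat.card {q : SL(2, ℤ) ⧸ Gamma0 N //
      ((ModularGroup.S * ModularGroup.T) ^ 1) • q = q}
      = Nat.card {q : SL(2, ℤ) ⧸ Gamma0 N // (ModularGroup.S * ModularGroup.T) • q = q} := by
    rw [pow_one]
  have h2U : Nat.card {q : SL(2, ℤ) ⧸ Gamma0 N //
      ((ModularGroup.S * ModularGroup.T) ^ 2) • q = q}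
      = Nat.card {q : SL(2, ℤ) ⧸ Gamma0 N // (ModularGroup.S * ModularGroup.T) • q = q} := by
    apply Nat.card_congr
    apply Equiv.subtypeEquivRight
    intro q
    constructor
    · intro h
      have h3 : ((ModularGroup.S * ModularGroup.T) ^ 3) • q = q := by
        rw [H.hU]; exact H.smul_z q
      rw [pow_succ', mul_smul, h] at h3
      exact h3
    · intro h
      rw [pow_two, mul_smul, h, h]
  rw [Finset.sum_range_succ, Finset.sum_range_one, h0S, h1S] at hS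
  rw [Finset.sum_range_succ, Finset.sum_range_succ, Finset.sum_range_one, h0U, h1U, h2U] at hU
  omega

end Fermat.Agent.S21.H75
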