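import Mathlib
import Fermat.Prelude.Def_ModularCurve_PeriodHomPair
import Fermat.Prelude.Def_ModularCurve_GenusNumerics
import Fermat.Agent.S21.H75_PartE1a
import Fermat.Agent.S20.H19_Index
import Fermat.Agent.S20.H19_Fixed
import Fermat.Agent.S20.H38_CuspCount
import Fermat.Agent.S21.H20_Final

/-!
# S21, part E1: `dim Hom_par(Γ₀(N), ℂ) ≤ 2 * genusFormula N`, and the upper bound
`dim S₂(Γ₀(N)) ≤ genusFormula N`.
-/

set_option autoImplicit false

open ModularCurve ModularCurve.Period UpperHalfPlane CongruenceSubgroup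
open scoped MatrixGroups

namespace Fermat.Agent.S21

/-- **Part E1**: the parabolic homomorphisms `Γ₀(N) → ℂ` form a space of dimension at most
`2 * genusFormula N`. -/
theorem partE1 (N : ℕ) [NeZero N] :
    Module.Finite ℂ (parabolicHoms ℂ (Gamma0 N) ℂ) ∧
      (Module.finrank ℂ (parabolicHoms ℂ (Gamma0 N) ℂ) : ℚ) ≤ 2 * genusFormula N := by
  obtain ⟨h1, h2⟩ := H75.partE1a N
  refine ⟨h1, ?_⟩
  rw [Fermat.Agent.S20.H19.G1, Fermat.Agent.S20.H19.G2, Fermat.Agent.S20.H19.G3,
    Fermat.Agent.S20.H38.G4] at h2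
  have h3 : ((6 * Module.finrank ℂ (parabolicHoms ℂ (Gamma0 N) ℂ) + 3 * nuTwo N + 4 * nuThree N
      + 6 * cuspCount N : ℕ) : ℚ) ≤ ((dedekindPsi N + 12 : ℕ) : ℚ) := by exact_mod_cast h2
  push_cast at h3
  unfold genusFormula
  linarith

/-- Upper-bound half of S20: `dim S₂(Γ₀(N)) ≤ genusFormula N`. -/
theorem finrank_cuspForm_le_genusFormula (N : ℕ) [NeZero N] :
    (Module.finrank ℂ (CuspForm (Gamma0 N) 2) : ℚ) ≤ genusFormula N := by
  obtain ⟨h1, h2⟩ := partE1 N
  have h3 := two_mul_finrank_cuspForm_le N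
  have h4 : ((2 * Module.finrank ℂ (CuspForm (Gamma0 N) 2) : ℕ) : ℚ)
      ≤ (Module.finrank ℂ (parabolicHoms ℂ (Gamma0 N) ℂ) : ℚ) := by exact_mod_cast h3
  push_cast at h4
  linarith

/-- `S₂(Γ₀(N))` is finite-dimensional. -/
theorem finite_cuspForm (N : ℕ) [NeZero N] : Module.Finite ℂ (CuspForm (Gamma0 N) 2) := by
  obtain ⟨h1, -⟩ := partE1 N
  obtain ⟨pml, hpml, hdef⟩ := periodHomPair_def N (existsPeriodMapLinear_of_partA (partA N))
  have hinj := periodHomPair_injective N
  let ι : CuspForm (Gamma0 N) 2 →ₗ[ℂ] parabolicHoms ℂ (Gamma0 N) ℂ :=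
    ((periodHomPair N).comp (LinearMap.inl ℂ _ (CuspForm (Gamma0 N) 2))).codRestrict _ (fun f => by
      have h0 : ((periodHomPair N).comp (LinearMap.inl ℂ _ (CuspForm (Gamma0 N) 2))) f
          = periodMap N f + charInvolution N ℂ ℂ (periodMap N f) := by
        rw [hdef]
        simp [hpml]
      rw [h0]
      exact Submodule.add_mem _ (periodMap_mem_parabolicHoms N f)
        (charInvolution_mem_parabolicHoms N ℂ ℂ (periodMap_mem_parabolicHoms N f)))
  have hιinj : Function.Injective ι := by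
    intro x y hxy
    have := congrArg Subtype.val hxy
    exact LinearMap.inl_injective (hinj this)
  exact Module.Finite.of_injective ι hιinj

end Fermat.Agent.S21
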