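import Mathlib

set_option autoImplicit false

namespace Fermat.Agent.S21.H69

open Module

variable {X : Type*} [Fintype X] [DecidableEq X]

theorem funLeft_eq_toLin' (σ : Equiv.Perm X) :
    LinearMap.funLeft ℂ ℂ σ = Matrix.toLin' (σ.permMatrix ℂ) := by
  apply LinearMap.ext; intro v
  rw [Matrix.toLin'_apply, Matrix.permMatrix_mulVec]
  rfl

theorem trace_funLeft (σ : Equiv.Perm X) :
    LinearMap.trace ℂ (X → ℂ) (LinearMap.funLeft ℂ ℂ σ) = (Nat.card {x // σ x = x} : ℂ) := by
  rw [funLeft_eq_toLin', Matrix.trace_toLin'_eq, Matrix.trace_permutation]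
  rfl

omit [Fintype X] [DecidableEq X] in
theorem funLeft_mul (σ τ : Equiv.Perm X) :
    LinearMap.funLeft ℂ ℂ (σ * τ) = LinearMap.funLeft ℂ ℂ τ ∘ₗ LinearMap.funLeft ℂ ℂ σ := by
  apply LinearMap.ext; intro v
  rfl

omit [Fintype X] [DecidableEq X] in
theorem funLeft_one : LinearMap.funLeft ℂ ℂ ((1 : Equiv.Perm X) : X → X) = LinearMap.id := by
  apply LinearMap.ext; intro v
  rfl

/-- (L1) For an involution `σ` of a finite set `X`, the `(-1)`-eigenspace of the pullback on
functions has dimension `(#X - #Fix σ)/2`. -/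
theorem two_mul_finrank_ker_add_card_fixed (σ : Equiv.Perm X) (hσ : σ * σ = 1) :
    2 * finrank ℂ (LinearMap.ker (LinearMap.id + LinearMap.funLeft ℂ ℂ σ))
      + Nat.card {x // σ x = x} = Nat.card X := by
  set s : (X → ℂ) →ₗ[ℂ] (X → ℂ) := LinearMap.funLeft ℂ ℂ σ with hs
  have hss : s ∘ₗ s = LinearMap.id := by
    rw [hs, ← funLeft_mul, hσ, funLeft_one]
  have hss' : ∀ v, s (s v) = v := fun v => by
    have := congrArg (fun f => f v) hss
    simpa using this
  set P : (X → ℂ) →ₗ[ℂ] (X → ℂ) := (2⁻¹ : ℂ) • (LinearMap.id - s) with hP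
  have hproj : LinearMap.IsProj (LinearMap.ker (LinearMap.id + s)) P := by
    constructor
    · intro v
      rw [LinearMap.mem_ker, hP]
      simp only [LinearMap.smul_apply, LinearMap.sub_apply, LinearMap.id_apply,
        LinearMap.add_apply, map_smul, map_sub, hss']
      module
    · intro v hv
      rw [LinearMap.mem_ker] at hv
      simp only [LinearMap.add_apply, LinearMap.id_apply] at hv
      have hsv : s v = -v := by
        rw [eq_neg_iff_add_eq_zero, add_comm]; exact hv
      rw [hP]
      simp only [LinearMap.smul_apply, LinearMap.sub_apply, LinearMap.id_apply, hsv]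
      module
  have htr := hproj.trace
  have ht1 : LinearMap.trace ℂ (X → ℂ) s = (Nat.card {x // σ x = x} : ℂ) := by
    rw [hs]; exact trace_funLeft σ
  have h1 : LinearMap.trace ℂ (X → ℂ) LinearMap.id = (Nat.card X : ℂ) := by
    have := LinearMap.trace_one ℂ (X → ℂ)
    rw [Module.finrank_fintype_fun_eq_card] at this
    rw [Nat.card_eq_fintype_card]
    exact this
  rw [hP, map_smul, map_sub, ht1, h1] at htr
  have h2 : (2 * (finrank ℂ (LinearMap.ker (LinearMap.id + s)) : ℂ)
      + (Nat.card {x // σ x = x} : ℂ)) = (Nat.card X : ℂ) := by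
    rw [← htr]
    simp only [smul_eq_mul]
    ring
  exact_mod_cast h2

/-- (L2) For a permutation `σ` of order dividing 3 of a finite set `X`, the kernel of
`1 + σ^* + σ^*²` on functions has dimension `2(#X - #Fix σ)/3`. -/
theorem three_mul_finrank_ker_add_card_fixed (σ : Equiv.Perm X) (hσ : σ * σ * σ = 1) :
    3 * finrank ℂ (LinearMap.ker (LinearMap.id + LinearMap.funLeft ℂ ℂ σ
        + LinearMap.funLeft ℂ ℂ σ ∘ₗ LinearMap.funLeft ℂ ℂ σ))
      + 2 * Nat.card {x // σ x = x} = 2 * Nat.card X := by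
  set s : (X → ℂ) →ₗ[ℂ] (X → ℂ) := LinearMap.funLeft ℂ ℂ σ with hs
  have hsss : s ∘ₗ s ∘ₗ s = LinearMap.id := by
    rw [hs, ← funLeft_mul, ← funLeft_mul, hσ, funLeft_one]
  have hsss' : ∀ v, s (s (s v)) = v := fun v => by
    have := congrArg (fun f => f v) hsss
    simpa using this
  -- fixed points of σ² are the fixed points of σ
  have hfix : Nat.card {x // (σ * σ) x = x} = Nat.card {x // σ x = x} := by
    apply Nat.card_congr
    refine Equiv.subtypeEquivRight (fun x => ?_)
    constructor
    · intro h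
      have h3 : σ (σ (σ x)) = x := by
        have := congrArg (fun τ : Equiv.Perm X => τ x) hσ
        simpa [Equiv.Perm.mul_apply] using this
      rw [Equiv.Perm.mul_apply] at h
      rw [h] at h3
      exact h3
    · intro h
      rw [Equiv.Perm.mul_apply, h, h]
  set P : (X → ℂ) →ₗ[ℂ] (X → ℂ) :=
    (3⁻¹ : ℂ) • ((2 : ℂ) • LinearMap.id - s - s ∘ₗ s) with hP
  have hproj : LinearMap.IsProj (LinearMap.ker (LinearMap.id + s + s ∘ₗ s)) P := by
    constructor
    · intro v
      rw [LinearMap.mem_ker, hP]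
      simp only [LinearMap.smul_apply, LinearMap.sub_apply, LinearMap.id_apply,
        LinearMap.add_apply, LinearMap.comp_apply, map_smul, map_sub, hsss']
      module
    · intro v hv
      rw [LinearMap.mem_ker] at hv
      simp only [LinearMap.add_apply, LinearMap.id_apply, LinearMap.comp_apply] at hv
      have hsv : s (s v) = -v - s v := by
        rw [eq_sub_iff_add_eq, eq_neg_iff_add_eq_zero]
        rw [← hv]; abel
      rw [hP]
      simp only [LinearMap.smul_apply, LinearMap.sub_apply, LinearMap.id_apply,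
        LinearMap.comp_apply, hsv]
      module
  have htr := hproj.trace
  have ht1 : LinearMap.trace ℂ (X → ℂ) s = (Nat.card {x // σ x = x} : ℂ) := by
    rw [hs]; exact trace_funLeft σ
  have ht2 : LinearMap.trace ℂ (X → ℂ) (s ∘ₗ s) = (Nat.card {x // σ x = x} : ℂ) := by
    rw [hs, ← funLeft_mul, trace_funLeft, hfix]
  have h1 : LinearMap.trace ℂ (X → ℂ) LinearMap.id = (Nat.card X : ℂ) := by
    have := LinearMap.trace_one ℂ (X → ℂ)
    rw [Module.finrank_fintype_fun_eq_card] at this
    rw [Nat.card_eq_fintype_card]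
    exact this
  rw [hP, map_smul, map_sub, map_sub, map_smul, ht1, ht2, h1] at htr
  have h2 : (3 * (finrank ℂ (LinearMap.ker (LinearMap.id + s + s ∘ₗ s)) : ℂ)
      + 2 * (Nat.card {x // σ x = x} : ℂ)) = 2 * (Nat.card X : ℂ) := by
    rw [← htr]
    simp only [smul_eq_mul]
    ring
  exact_mod_cast h2

end Fermat.Agent.S21.H69
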