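import Mathlib
import Fermat.Agent.S21.H69_PermKer

/-!
# S21, part E1a: the abstract linear-algebra core

`Fermat.Agent.S21.H69.abstract_bound`: a finite set `X` with permutations `σ` (order ≤ 2),
`υ` (order dividing 3), `τ = σ⁻¹ υ`, such that functions invariant under `σ` and `υ` are constant.
If a vector space `P` maps linearly to pairs `(c_S, c_U)` of functions on `X` satisfying the
2-term and 3-term relations, the parabolic condition along `τ`, and injectivity modulo
coboundaries, then `6 dim P + 3 #Fix σ + 4 #Fix υ + 6 dim (τ-invariants) ≤ #X + 12`.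
-/

set_option autoImplicit false

namespace Fermat.Agent.S21.H69

open Module

section Pairing

variable {K : Type*} [Field K] {Z L : Type*} [AddCommGroup Z] [Module K Z]
  [AddCommGroup L] [Module K L] [FiniteDimensional K Z] [FiniteDimensional K L]

omit [FiniteDimensional K Z] in
theorem finrank_range_flip (B : Z →ₗ[K] L →ₗ[K] K) :
    finrank K (LinearMap.range B.flip) = finrank K (LinearMap.range B) := by
  have h : B.flip = B.dualMap.comp (Module.evalEquiv K L).toLinearMap := rfl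
  rw [h, LinearMap.range_comp_of_range_eq_top _ (LinearEquiv.range _),
    LinearMap.finrank_range_dualMap_eq_finrank_range]

theorem finrank_ker_add_eq (B : Z →ₗ[K] L →ₗ[K] K) :
    finrank K (LinearMap.ker B) + finrank K L = finrank K (LinearMap.ker B.flip) + finrank K Z := by
  have h1 := LinearMap.finrank_range_add_finrank_ker B
  have h2 := LinearMap.finrank_range_add_finrank_ker B.flip
  have h3 := finrank_range_flip B
  omega

end Pairing

section Dot

variable {X : Type*} [Fintype X]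

/-- The standard bilinear pairing on functions `X → ℂ`. -/
noncomputable def dotL : (X → ℂ) →ₗ[ℂ] (X → ℂ) →ₗ[ℂ] ℂ :=
  LinearMap.mk₂ ℂ (fun v w => ∑ x, v x * w x)
    (fun v v' w => by simp only [Pi.add_apply, add_mul, Finset.sum_add_distrib])
    (fun c v w => by simp only [Pi.smul_apply, smul_eq_mul, mul_assoc, Finset.mul_sum])
    (fun v w w' => by simp only [Pi.add_apply, mul_add, Finset.sum_add_distrib])
    (fun c v w => by
      simp only [Pi.smul_apply, smul_eq_mul, Finset.mul_sum]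
      exact Finset.sum_congr rfl fun x _ => by ring)

theorem dotL_apply (v w : X → ℂ) : dotL v w = ∑ x, v x * w x := rfl

theorem dotL_funLeft (π : Equiv.Perm X) (v w : X → ℂ) :
    dotL (LinearMap.funLeft ℂ ℂ π v) (LinearMap.funLeft ℂ ℂ π w) = dotL v w := by
  rw [dotL_apply, dotL_apply]
  exact Equiv.sum_comp π (fun x => v x * w x)

theorem dotL_single [DecidableEq X] (y : X) (w : X → ℂ) :
    dotL (Pi.single y (1 : ℂ)) w = w y := by
  rw [dotL_apply]
  simp [Pi.single_apply]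

end Dot

section Main

variable {X : Type*} [Fintype X] [DecidableEq X] [Nonempty X]

/-- A function on `X` invariant under `σ` and `υ` which generate a transitive group is constant;
hence it is a multiple of the constant function `1`. -/
theorem mem_span_one_of_const (ℓ : X → ℂ) (h : ∀ x y, ℓ x = ℓ y) :
    ℓ ∈ Submodule.span ℂ ({fun _ => (1 : ℂ)} : Set (X → ℂ)) := by
  obtain ⟨x₀⟩ := ‹Nonempty X›
  rw [Submodule.mem_span_singleton]
  refine ⟨ℓ x₀, ?_⟩
  funext x
  simp [h x x₀]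

theorem abstract_bound
    (σ υ τ : Equiv.Perm X) (hσ : σ * σ = 1) (hυ : υ * υ * υ = 1) (hτ : υ = σ * τ)
    (htrans : ∀ ℓ : X → ℂ, (∀ x, ℓ (σ x) = ℓ x) → (∀ x, ℓ (υ x) = ℓ x) → ∀ x y, ℓ x = ℓ y)
    {P : Type*} [AddCommGroup P] [Module ℂ P]
    (ΦS ΦU : P →ₗ[ℂ] (X → ℂ))
    (hS : ∀ φ x, ΦS φ x + ΦS φ (σ x) = 0)
    (hU : ∀ φ x, ΦU φ x + ΦU φ (υ x) + ΦU φ (υ (υ x)) = 0)
    (hpar : ∀ φ (ℓ : X → ℂ), (∀ x, ℓ (τ x) = ℓ x) → ∑ x, (ΦU φ x - ΦS φ (τ x)) * ℓ x = 0)
    (hinj : ∀ φ (w : X → ℂ), (∀ x, ΦS φ x = w x - w (σ x)) → (∀ x, ΦU φ x = w x - w (υ x)) →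
      φ = 0) :
    Module.Finite ℂ P ∧
    6 * finrank ℂ P + 3 * Nat.card {x // σ x = x} + 4 * Nat.card {x // υ x = x}
      + 6 * finrank ℂ (LinearMap.ker (LinearMap.id - LinearMap.funLeft ℂ ℂ τ))
      ≤ Nat.card X + 12 := by
  classical
  -- notation
  set s : (X → ℂ) →ₗ[ℂ] (X → ℂ) := LinearMap.funLeft ℂ ℂ σ with hs
  set u : (X → ℂ) →ₗ[ℂ] (X → ℂ) := LinearMap.funLeft ℂ ℂ υ with hu
  set t : (X → ℂ) →ₗ[ℂ] (X → ℂ) := LinearMap.funLeft ℂ ℂ τ with ht
  have hs_apply : ∀ (v : X → ℂ) x, s v x = v (σ x) := fun v x => rfl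
  have hu_apply : ∀ (v : X → ℂ) x, u v x = v (υ x) := fun v x => rfl
  have ht_apply : ∀ (v : X → ℂ) x, t v x = v (τ x) := fun v x => rfl
  have hσ' : ∀ x, σ (σ x) = x := fun x => by
    have := congrArg (fun π : Equiv.Perm X => π x) hσ
    simpa [Equiv.Perm.mul_apply] using this
  have hυ' : ∀ x, υ (υ (υ x)) = x := fun x => by
    have := congrArg (fun π : Equiv.Perm X => π x) hυ
    simpa [Equiv.Perm.mul_apply] using this
  have hτ' : ∀ x, υ x = σ (τ x) := fun x => by rw [hτ]; rfl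
  set AS : Submodule ℂ (X → ℂ) := LinearMap.ker (LinearMap.id + s) with hAS
  set AU : Submodule ℂ (X → ℂ) := LinearMap.ker (LinearMap.id + u + u ∘ₗ u) with hAU
  set Vτ : Submodule ℂ (X → ℂ) := LinearMap.ker (LinearMap.id - t) with hVτ
  have memAS : ∀ v : X → ℂ, v ∈ AS ↔ ∀ x, v x + v (σ x) = 0 := by
    intro v
    rw [hAS, LinearMap.mem_ker]
    constructor
    · intro h x
      have := congrFun h x
      simpa [hs_apply] using this
    · intro h
      funext x
      simpa [hs_apply] using h x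
  have memAU : ∀ v : X → ℂ, v ∈ AU ↔ ∀ x, v x + v (υ x) + v (υ (υ x)) = 0 := by
    intro v
    rw [hAU, LinearMap.mem_ker]
    constructor
    · intro h x
      have := congrFun h x
      simpa [hu_apply] using this
    · intro h
      funext x
      simpa [hu_apply] using h x
  have memVτ : ∀ v : X → ℂ, v ∈ Vτ ↔ ∀ x, v (τ x) = v x := by
    intro v
    rw [hVτ, LinearMap.mem_ker]
    constructor
    · intro h x
      have := congrFun h x
      simp only [LinearMap.sub_apply, LinearMap.id_apply, Pi.sub_apply, ht_apply,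
        Pi.zero_apply] at this
      exact (sub_eq_zero.mp this).symm
    · intro h
      funext x
      simp only [LinearMap.sub_apply, LinearMap.id_apply, Pi.sub_apply, ht_apply,
        Pi.zero_apply, h x, sub_self]
  -- `s`, `u` are of order 2, 3 and `u = t ∘ s`
  have hss : ∀ v : X → ℂ, s (s v) = v := fun v => by
    funext x; simp only [hs_apply, hσ']
  have huuu : ∀ v : X → ℂ, u (u (u v)) = v := fun v => by
    funext x; simp only [hu_apply, hυ']
  have huts : ∀ v : X → ℂ, u v = t (s v) := fun v => by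
    funext x; simp only [hu_apply, ht_apply, hs_apply, hτ']
  -- the maps
  let ΦSr : P →ₗ[ℂ] AS := ΦS.codRestrict AS (fun φ => (memAS _).2 (hS φ))
  let ΦUr : P →ₗ[ℂ] AU := ΦU.codRestrict AU (fun φ => (memAU _).2 (hU φ))
  let Φ : P →ₗ[ℂ] (AS × AU) := ΦSr.prod ΦUr
  let δS : (X → ℂ) →ₗ[ℂ] AS := (LinearMap.id - s).codRestrict AS (fun w => (memAS _).2
    (fun x => by
      simp only [LinearMap.sub_apply, LinearMap.id_apply, Pi.sub_apply, hs_apply, hσ']
      ring))
  let δU : (X → ℂ) →ₗ[ℂ] AU := (LinearMap.id - u).codRestrict AU (fun w => (memAU _).2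
    (fun x => by
      simp only [LinearMap.sub_apply, LinearMap.id_apply, Pi.sub_apply, hu_apply, hυ']
      ring))
  let δ : (X → ℂ) →ₗ[ℂ] (AS × AU) := δS.prod δU
  let Θ : (AS × AU) →ₗ[ℂ] (X → ℂ) :=
    AU.subtype ∘ₗ LinearMap.snd ℂ AS AU - t ∘ₗ AS.subtype ∘ₗ LinearMap.fst ℂ AS AU
  let B : (AS × AU) →ₗ[ℂ] Vτ →ₗ[ℂ] ℂ := (dotL.comp Θ).compl₂ Vτ.subtype
  have hΘ : ∀ z : AS × AU, Θ z = (z.2 : X → ℂ) - t (z.1 : X → ℂ) := fun z => rfl
  have hB : ∀ (z : AS × AU) (ℓ : Vτ), B z ℓ = dotL (Θ z) (ℓ : X → ℂ) := fun z ℓ => rfl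
  have htℓ : ∀ ℓ : Vτ, t (ℓ : X → ℂ) = ℓ := fun ℓ => by
    funext x; rw [ht_apply]; exact (memVτ _).1 ℓ.2 x
  have hB' : ∀ (z : AS × AU) (ℓ : Vτ),
      B z ℓ = dotL (z.2 : X → ℂ) (ℓ : X → ℂ) - dotL (z.1 : X → ℂ) (ℓ : X → ℂ) := by
    intro z ℓ
    rw [hB, hΘ, map_sub, LinearMap.sub_apply]
    congr 1
    conv_lhs => rw [← htℓ ℓ]
    rw [ht, dotL_funLeft]
  -- (1) the image of `Φ` lies in `ker B`
  have hΦB : ∀ φ, Φ φ ∈ LinearMap.ker B := by
    intro φ
    rw [LinearMap.mem_ker]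
    ext ℓ
    rw [hB, LinearMap.zero_apply, dotL_apply]
    exact hpar φ ℓ ((memVτ _).1 ℓ.2)
  -- (2) coboundaries lie in `ker B`
  have hδB : ∀ w, δ w ∈ LinearMap.ker B := by
    intro w
    rw [LinearMap.mem_ker]
    ext ℓ
    rw [hB', LinearMap.zero_apply]
    show dotL (w - u w) (ℓ : X → ℂ) - dotL (w - s w) (ℓ : X → ℂ) = 0
    have h1 : dotL (u w) (ℓ : X → ℂ) = dotL (s w) (ℓ : X → ℂ) := by
      rw [huts]
      conv_lhs => rw [← htℓ ℓ]
      rw [ht, dotL_funLeft]
    simp only [map_sub, LinearMap.sub_apply, h1]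
    ring
  -- (3) `Φ` is injective, so `P` is finite-dimensional
  have hΦ_apply : ∀ φ, ((Φ φ).1 : X → ℂ) = ΦS φ ∧ ((Φ φ).2 : X → ℂ) = ΦU φ := fun φ => ⟨rfl, rfl⟩
  have hδ_apply : ∀ w, ((δ w).1 : X → ℂ) = w - s w ∧ ((δ w).2 : X → ℂ) = w - u w :=
    fun w => ⟨rfl, rfl⟩
  have hΦδ : ∀ φ w, Φ φ = δ w → φ = 0 := by
    intro φ w h
    refine hinj φ w (fun x => ?_) (fun x => ?_)
    · have := congrArg (fun z : AS × AU => (z.1 : X → ℂ) x) h
      simpa [(hΦ_apply φ).1, (hδ_apply w).1, hs_apply] using this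
    · have := congrArg (fun z : AS × AU => (z.2 : X → ℂ) x) h
      simpa [(hΦ_apply φ).2, (hδ_apply w).2, hu_apply] using this
  have hΦinj : Function.Injective Φ := by
    rw [injective_iff_map_eq_zero]
    intro φ h
    exact hΦδ φ 0 (by rw [h, map_zero])
  haveI hfin : Module.Finite ℂ P := Module.Finite.of_injective Φ hΦinj
  refine ⟨hfin, ?_⟩
  -- (4) the map `Ω (φ, w) = Φ φ - δ w`
  let Ω : (P × (X → ℂ)) →ₗ[ℂ] (AS × AU) := Φ.coprod (-δ)
  have hΩ : ∀ φ w, Ω (φ, w) = Φ φ - δ w := fun φ w => by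
    show Φ φ + (-δ) w = Φ φ - δ w
    rw [LinearMap.neg_apply, sub_eq_add_neg]
  have hΩrange : LinearMap.range Ω ≤ LinearMap.ker B := by
    rintro _ ⟨⟨φ, w⟩, rfl⟩
    rw [hΩ]
    exact Submodule.sub_mem _ (hΦB φ) (hδB w)
  have hδ0 : ∀ w, δ w = 0 → ∀ x y, w x = w y := by
    intro w h
    refine htrans w (fun x => ?_) (fun x => ?_)
    · have := congrArg (fun z : AS × AU => (z.1 : X → ℂ) x) h
      simp only [(hδ_apply w).1, Pi.sub_apply, hs_apply, Prod.fst_zero, ZeroMemClass.coe_zero,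
        Pi.zero_apply] at this
      exact (sub_eq_zero.mp this).symm
    · have := congrArg (fun z : AS × AU => (z.2 : X → ℂ) x) h
      simp only [(hδ_apply w).2, Pi.sub_apply, hu_apply, Prod.snd_zero, ZeroMemClass.coe_zero,
        Pi.zero_apply] at this
      exact (sub_eq_zero.mp this).symm
  have hΩker : LinearMap.ker Ω ≤
      Submodule.span ℂ ({((0 : P), fun _ => (1 : ℂ))} : Set (P × (X → ℂ))) := by
    rintro ⟨φ, w⟩ h
    rw [LinearMap.mem_ker, hΩ, sub_eq_zero] at h
    have hφ : φ = 0 := hΦδ φ w h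
    have hw : δ w = 0 := by rw [← h, hφ, map_zero]
    have hconst := hδ0 w hw
    obtain ⟨x₀⟩ := ‹Nonempty X›
    rw [Submodule.mem_span_singleton]
    refine ⟨w x₀, ?_⟩
    rw [hφ]
    ext x
    · simp
    · simp [hconst x x₀]
  have hkerΩ1 : finrank ℂ (LinearMap.ker Ω) ≤ 1 := by
    refine (Submodule.finrank_mono hΩker).trans ?_
    exact (finrank_span_le_card _).trans (by simp)
  -- (5) the right kernel of `B` consists of constants
  have hBflip : LinearMap.ker B.flip ≤
      Submodule.span ℂ ({⟨fun _ => (1 : ℂ), (memVτ _).2 (fun _ => rfl)⟩} : Set Vτ) := by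
    intro ℓ hℓ
    rw [LinearMap.mem_ker] at hℓ
    have hz : ∀ z, B z ℓ = 0 := fun z => by
      have := congrArg (fun f => f z) hℓ
      simpa using this
    have hconst : ∀ x y, (ℓ : X → ℂ) x = (ℓ : X → ℂ) y := by
      refine htrans _ (fun y => ?_) (fun y => ?_)
      · have h1 := hz (δS (Pi.single y 1), 0)
        rw [hB'] at h1
        simp only [ZeroMemClass.coe_zero, map_zero, LinearMap.zero_apply, zero_sub,
          neg_eq_zero] at h1
        have h2 : ((δS (Pi.single y 1) : AS) : X → ℂ) = Pi.single y 1 - s (Pi.single y 1) := rfl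
        rw [h2, map_sub, LinearMap.sub_apply, dotL_single] at h1
        have h3 : dotL (s (Pi.single y 1)) (ℓ : X → ℂ) = (ℓ : X → ℂ) (σ y) := by
          conv_lhs => rw [← hss (ℓ : X → ℂ)]
          rw [hs, dotL_funLeft, dotL_single]
          rfl
        rw [h3] at h1
        exact (sub_eq_zero.mp h1).symm
      · have h1 := hz (0, δU (Pi.single (υ y) 1))
        rw [hB'] at h1
        simp only [ZeroMemClass.coe_zero, map_zero, LinearMap.zero_apply, sub_zero] at h1
        have h2 : ((δU (Pi.single (υ y) 1) : AU) : X → ℂ)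
            = Pi.single (υ y) 1 - u (Pi.single (υ y) 1) := rfl
        rw [h2, map_sub, LinearMap.sub_apply, dotL_single] at h1
        have h3 : dotL (u (Pi.single (υ y) 1)) (ℓ : X → ℂ) = (ℓ : X → ℂ) y := by
          conv_lhs => rw [← huuu (ℓ : X → ℂ)]
          rw [hu, dotL_funLeft, dotL_single]
          show (ℓ : X → ℂ) (υ (υ (υ y))) = _
          rw [hυ']
        rw [h3] at h1
        exact sub_eq_zero.mp h1
    obtain ⟨x₀⟩ := ‹Nonempty X›
    rw [Submodule.mem_span_singleton]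
    refine ⟨(ℓ : X → ℂ) x₀, ?_⟩
    apply Subtype.ext
    funext x
    simp [hconst x x₀]
  have hkerBflip1 : finrank ℂ (LinearMap.ker B.flip) ≤ 1 := by
    refine (Submodule.finrank_mono hBflip).trans ?_
    exact (finrank_span_le_card _).trans (by simp)
  -- (6) dimension count
  have hrn := LinearMap.finrank_range_add_finrank_ker Ω
  have hrange : finrank ℂ (LinearMap.range Ω) ≤ finrank ℂ (LinearMap.ker B) :=
    Submodule.finrank_mono hΩrange
  have hprod : finrank ℂ (P × (X → ℂ)) = finrank ℂ P + Nat.card X := by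
    rw [Module.finrank_prod, Module.finrank_fintype_fun_eq_card, Nat.card_eq_fintype_card]
  have hpair := finrank_ker_add_eq B
  have hZ : finrank ℂ (AS × AU) = finrank ℂ AS + finrank ℂ AU := Module.finrank_prod
  have hL1 := two_mul_finrank_ker_add_card_fixed σ hσ
  have hL2 := three_mul_finrank_ker_add_card_fixed υ hυ
  change 2 * finrank ℂ AS + _ = _ at hL1
  change 3 * finrank ℂ AU + _ = _ at hL2
  omega

end Main

end Fermat.Agent.S21.H69
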